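import Fermat.Agent.RT.Assembly.Tangent
import Fermat.Agent.RT.Assembly.Level
import Fermat.Agent.CFT.Flat.Tangent
import Fermat.Agent.CFT.TWPrimes.Irred

/-!
# The tangent space relative to the places of the level

The bound on the derivations killing the coordinates at the places, from the bound on the classes
vanishing at those places.
-/

set_option autoImplicit false
set_option linter.style.haveILetI false

noncomputable section

namespace Fermat.Agent.RT.Assembly

open IsLocalRing Module Fermat.Agent.Deform Fermat.Agent.CFT.Tangent Fermat.Agent.Arith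

/-- The bound on classes which are unramified away from `Smin`, `T` and `qv`, trivial at `T`, with
vanishing trace condition on `Smin` away from `p` and the local bound at `p`. -/
def TangentCoreAt {k : Type} [Field k] (p : ℕ) [Fact p.Prime] (r : Gal →* M2 k)
    (Smin T : Finset ℕ) {r' : ℕ} (qv : Fin r' → ℕ) : Prop :=
  ∀ V : Submodule k (Gal → M2 k), Module.Finite k V →
    (∀ b ∈ V, IsAdCocycle r b ∧ IsFiniteLevel b ∧ ∀ σ, (b σ).trace = 0) →
    (∀ q : ℕ, q.Prime → q ∉ Smin → q ∉ T → (∀ i, qv i ≠ q) →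
      ∀ A : ValuationSubring QBar, A.LiesOverPrime q →
        ∀ σ ∈ A.inertiaSubgroupIn ℚ, ∀ b ∈ V, b σ = 0) →
    (∀ q ∈ Smin, q ≠ p → ∀ A : ValuationSubring QBar, A.LiesOverPrime q →
      ∀ σ ∈ A.inertiaSubgroupIn ℚ, ∀ b ∈ V, (b σ * r σ).trace = 0) →
    (∀ v ∈ T, ∀ [Fact v.Prime], ∀ b ∈ V,
      b ∈ cobdOn r ((padicPlace v).decompositionSubgroup ℚ)) →
    finrank k V ≤ finrank k (V ⊓ cobdOn r ((padicPlace p).decompositionSubgroup ℚ) :
        Submodule k (Gal → M2 k)) +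
      finrank k (fixedOn r ((padicPlace p).decompositionSubgroup ℚ)) + 1 →
    (∀ b ∈ V, ∀ X, b = cobdLin r X → b = 0) →
    finrank k V + 3 * T.card ≤ r'

/-- Taylor–Wiles primes relative to places with scalar decomposition groups. -/
def TangentCoreInput : Prop :=
  ∀ (k : Type) [Field k] [Finite k] (p : ℕ) [Fact p.Prime] [CharP k p], p ≠ 2 →
  ∀ r : Gal →* M2 k, GaloisFactorsThroughFiniteLevel r → CFT.TWPrimes.TWHyp r →
    (∀ (σ : Gal) (n : ℕ), (∀ μ : QBar, μ ^ p = 1 → σ μ = μ ^ n) → (r σ).det = (n : k)) →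
  ∀ Smin T S : Finset ℕ, p ∈ Smin → Smin ⊆ S → T ⊆ S → Disjoint Smin T → (∀ q ∈ S, q.Prime) →
    (∀ q : ℕ, q.Prime → q ∉ Smin → ∀ A : ValuationSubring QBar, A.LiesOverPrime q →
      ∀ σ ∈ A.inertiaSubgroupIn ℚ, r σ = 1) →
    (∀ q ∈ Smin, q ≠ p → ∀ [Fact q.Prime],
      (∀ τ ∈ (padicPlace q).inertiaSubgroupIn ℚ, (r τ).trace = 2 ∧ (r τ).det = 1) ∧
        ∃ τ ∈ (padicPlace q).inertiaSubgroupIn ℚ, r τ ≠ 1) →
    (∀ v ∈ T, ∀ [Fact v.Prime], ∀ g ∈ (padicPlace v).decompositionSubgroup ℚ,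
      ∃ c : k, r g = c • (1 : M2 k)) →
    ∃ r' : ℕ, ∀ n : ℕ, ∃ qv : Fin r' → ℕ, Function.Injective qv ∧
      (∀ i, (qv i).Prime ∧ qv i ∉ S ∧ p ^ (n + 1) ∣ qv i - 1) ∧
      (∀ i, ∀ A : ValuationSubring QBar, A.LiesOverPrime (qv i) →
        ∀ φ : Gal, A.IsFrobeniusAt φ (qv i) →
          ∃ α β : k, α ≠ β ∧ (r φ).trace = α + β ∧ (r φ).det = α * β) ∧
      TangentCoreAt p r Smin T qv

variable {O : Type} [CommRing O] [IsLocalRing O] [Finite (ResidueField O)]
variable {R : Type} [CommRing R] [IsLocalRing R] [IsNoetherianRing R]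
  [IsAdicComplete (maximalIdeal R) R] [Algebra O R]

omit [IsAdicComplete (maximalIdeal R) R] in
/-- The bound on the derivations killing the coordinates at the places, from the bound at `p`. -/
theorem finrank_killedDer_le_of_local (p : ℕ) [Fact p.Prime]
    [CharP (ResidueField O) p] (hp2 : p ≠ 2) {W : Rigid O} {h : IsResAlg O R} {ru : Gal →* M2 R}
    (hl : Lifts W h ru) (hn : IsNormal W ru) (hgen : Algebra.adjoin O (entries ru) = ⊤)
    (hc : IsCont ru) (hdet : (toRep ru hc).DetIsCyclotomic p)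
    (hrb : GaloisFactorsThroughFiniteLevel W.rb)
    (hloc : ∀ K : Submodule (ResidueField O) (tangentDer h),
      finrank (ResidueField O) (LinearMap.range ((tangentCls W h ru).comp K.subtype)) ≤
        finrank (ResidueField O) ((LinearMap.range ((tangentCls W h ru).comp K.subtype) ⊓
            cobdOn W.rb ((padicPlace p).decompositionSubgroup ℚ) :
          Submodule (ResidueField O) (Gal → M2 (ResidueField O)))) +
        finrank (ResidueField O) (fixedOn W.rb ((padicPlace p).decompositionSubgroup ℚ)) + 1)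
    {Smin T : Finset ℕ} {r' : ℕ} {qv : Fin r' → ℕ} (hcore : TangentCoreAt p W.rb Smin T qv)
    (hunr : ∀ q : ℕ, q.Prime → q ∉ Smin → q ∉ T → (∀ i, qv i ≠ q) →
      ∀ A : ValuationSubring QBar, A.LiesOverPrime q → ∀ σ ∈ A.inertiaSubgroupIn ℚ, ru σ = 1)
    (hmin : ∀ q ∈ Smin, q ≠ p → ∀ A : ValuationSubring QBar, A.LiesOverPrime q →
      ∀ σ ∈ A.inertiaSubgroupIn ℚ, (ru σ).trace = 2)
    {V : Type} [Fintype V] (vT : V → ℕ) [∀ v, Fact (vT v).Prime] (hvinj : Function.Injective vT)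
    (hT : T = Finset.univ.image vT) (hvp : ∀ v, vT v ≠ p) (σT φT : V → Gal)
    (hσT : ∀ v, σT v ∈ (padicPlace (vT v)).inertiaSubgroupIn ℚ)
    (hφT : ∀ v, (padicPlace (vT v)).IsFrobeniusAt (φT v) (vT v))
    (hinert : ∀ v, ∀ g ∈ (padicPlace (vT v)).inertiaSubgroupIn ℚ, W.rb g = 1)
    (hscal : ∀ v, ∃ e : ResidueField O, e ≠ 0 ∧ W.rb (φT v) = e • (1 : M2 (ResidueField O)))
    (hdetσ : ∀ v, (ru (σT v)).det = 1) (hdetφ : ∀ v, (ru (φT v)).det = (vT v : R))
    (hkum : ∀ v, ∃ π : QBar, π ≠ 0 ∧ (∃ m : ℤ,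
      Mazur.Eisenstein.ordAt (padicPlace (vT v)) (vT v) π = m / p) ∧
      EC.Reduction.res (padicPlace (vT v)) (σT v π / π) ≠ 1 ∧
      EC.Reduction.res (padicPlace (vT v)) (σT v π / π) ^ p = 1)
    {c2 : R} (hc2 : 2 * c2 = 1) :
    finrank (ResidueField O)
        (killedDer h (placeCoord c2 (fun v => ru (σT v)) (fun v => ru (φT v)))) +
      3 * Fintype.card V ≤ r' := by
  classical
  set K := killedDer h (placeCoord c2 (fun v => ru (σT v)) (fun v => ru (φT v))) with hK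
  have h2 : (2 : ResidueField O) ≠ 0 := fun h0 => by
    have := (CharP.cast_eq_zero_iff (ResidueField O) p 2).mp (by exact_mod_cast h0)
    exact hp2 ((Nat.prime_dvd_prime_iff_eq Fact.out Nat.prime_two).mp this)
  let cls : K →ₗ[ResidueField O] (Gal → M2 (ResidueField O)) :=
    (tangentCls W h ru).comp K.subtype
  have hinj : ∀ (δ : K) X, cls δ = cobdLin W.rb X → δ = 0 := fun δ X hX =>
    Subtype.ext (eq_zero_of_tangentCls_eq_cobdLin hl hn hgen δ.1 hX)
  have hker : Function.Injective cls :=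
    fun a b hab => Subtype.ext (sub_eq_zero.mp
      (eq_zero_of_tangentCls_eq_cobdLin hl hn hgen (a.1 - b.1) (X := 0)
        (by rw [map_sub, map_zero]; exact sub_eq_zero.mpr hab)))
  have hnat : ∀ (δ : tangentDer h) (a : ℕ), δ.1 (a : R) = 0 := fun δ a => by
    induction a with
    | zero => rw [Nat.cast_zero]; exact tangentDer_zero h δ
    | succ a ih => rw [Nat.cast_succ, δ.2.1, ih, tangentDer_one, add_zero]
  have hcoc : ∀ b ∈ LinearMap.range cls,
      IsAdCocycle W.rb b ∧ IsFiniteLevel b ∧ ∀ σ, (b σ).trace = 0 := by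
    rintro _ ⟨δ, rfl⟩
    exact ⟨tangentCls_mul hl δ.1, tangentCls_finiteLevel hc δ.1,
      trace_tangentCls p hl hc hdet δ.1⟩
  have hp' := hloc K
  have hTloc : ∀ v ∈ T, ∀ [Fact v.Prime], ∀ b ∈ LinearMap.range cls,
      b ∈ cobdOn W.rb ((padicPlace v).decompositionSubgroup ℚ) := by
    rintro v hv _ b ⟨δ, rfl⟩
    rw [hT, Finset.mem_image] at hv
    obtain ⟨w, -, rfl⟩ := hv
    obtain ⟨π, hπ, ⟨m, hm⟩, hπσ, hπσp⟩ := hkum w
    have hkill : ∀ x, δ.1.1 (placeCoord c2 (fun v => ru (σT v)) (fun v => ru (φT v)) x) = 0 :=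
      (mem_killedDer h).mp δ.2
    have hzero : ∀ (g : Gal) (e : ResidueField O), e ≠ 0 →
        W.rb g = e • (1 : M2 (ResidueField O)) → (∀ k, δ.1.1 (tlCoord c2 (ru g) k) = 0) →
        δ.1.1 (ru g).det = 0 → cls δ g = 0 := fun g e he hg h0 hd =>
      tangentCls_eq_zero δ.1 (eq_zero_of_tlCoord h2 hc2 δ.1 he (fun i j => by
        rw [hl g i j, hg]
        simp [Matrix.one_apply]) h0 hd)
    obtain ⟨e, he, heq⟩ := hscal w
    have hσ0 : cls δ (σT w) = 0 := hzero _ 1 one_ne_zero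
      (by rw [one_smul]; exact hinert w _ (hσT w))
      (fun k => by simpa [placeCoord] using hkill (w, 0, k))
      (by rw [hdetσ, ← Nat.cast_one]; exact hnat _ _)
    have hφ0 : cls δ (φT w) = 0 := hzero _ e he heq
      (fun k => by simpa [placeCoord] using hkill (w, 1, k))
      (by rw [hdetφ]; exact hnat _ _)
    obtain ⟨hb, hfin, -⟩ := hcoc _ ⟨δ, rfl⟩
    refine ⟨0, Matrix.trace_zero _ _, fun s hs => ?_⟩
    rw [mul_zero, zero_mul, sub_zero]
    exact eq_zero_on_decomposition hrb hb hfin (hvp w) (hinert w) (hσT w) hπ hm hπσ hπσp hσ0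
      (hφT w) hφ0 hs
  have key := hcore (LinearMap.range cls) inferInstance hcoc
    (by
      rintro q hq hqS hqT hqv A hA σ hσ _ ⟨δ, rfl⟩
      exact tangentCls_eq_zero_of_eq_one δ.1 (hunr q hq hqS hqT hqv A hA σ hσ))
    (by
      rintro q hq hqp A hA σ hσ _ ⟨δ, rfl⟩
      show (tangentCls W h ru δ.1 σ * W.rb σ).trace = 0
      rw [trace_tangentCls_mul_rb, hmin q hq hqp A hA σ hσ]
      exact_mod_cast hnat δ.1 2)
    hTloc hp' (by
      rintro _ ⟨δ, rfl⟩ X hX
      rw [hinj δ X hX, map_zero])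
  rw [LinearMap.finrank_range_of_inj hker, hT, Finset.card_image_of_injective _ hvinj,
    Finset.card_univ] at key
  exact key

end Fermat.Agent.RT.Assembly
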