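import Fermat.Agent.GaloisReps.CoeffExt
import Fermat.Agent.RT.Algebra.Support

/-!
# Coefficients for the patching argument

A complete discrete valuation ring over `ℤ_[p]` with a primitive `p`-th root of unity, whose
residue field contains the roots of all quadratic polynomials over `ZMod p`, inside `ℂ_[p]`.
-/

set_option autoImplicit false
set_option linter.style.haveILetI false

noncomputable section

namespace Fermat.Agent.RT.Assembly

open IsLocalRing Polynomial Fermat.Agent.RT.Germ Fermat.Agent.RT.Algebra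

/-- A quadratic polynomial over `ZMod p` has a root in every field of characteristic `p` with a
primitive root of unity of order `p ^ 2 - 1`. -/
theorem exists_root_quadratic {p : ℕ} [Fact p.Prime] {k : Type*} [Field k] [CharP k p] {ω : k}
    (hω : IsPrimitiveRoot ω (p ^ 2 - 1)) (f : (ZMod p)[X]) (hf : f.natDegree = 2) :
    ∃ x : k, (f.map (ZMod.castHom dvd_rfl k)).IsRoot x := by
  classical
  have hp : p.Prime := Fact.out
  have h4 : 4 ≤ p ^ 2 := by nlinarith [hp.two_le]
  letI := ZMod.algebra k p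
  have hcast : ZMod.castHom (dvd_refl p) k = algebraMap (ZMod p) k := RingHom.ext_zmod _ _
  -- a root in the algebraic closure is fixed by the square of Frobenius
  let K := AlgebraicClosure k
  obtain ⟨z, hz⟩ := IsAlgClosed.exists_aeval_eq_zero K f (by
    intro h0; rw [degree_eq_natDegree (fun h => by rw [h, natDegree_zero] at hf; omega), hf] at h0
    exact absurd h0 (by norm_num))
  have hzp : z ^ p ^ 2 = z := by
    have hf0 : f ≠ 0 := fun h => by rw [h, natDegree_zero] at hf; omega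
    have hint : IsIntegral (ZMod p) z :=
      ⟨f * C f.leadingCoeff⁻¹, monic_mul_leadingCoeff_inv hf0, by
        rw [← aeval_def, map_mul, hz, zero_mul]⟩
    have hdeg : (minpoly (ZMod p) z).natDegree ≤ 2 :=
      hf ▸ natDegree_le_natDegree (minpoly.degree_le_of_ne_zero (ZMod p) z hf0 hz)
    set F := IntermediateField.adjoin (ZMod p) {z}
    have : FiniteDimensional (ZMod p) F := IntermediateField.adjoin.finiteDimensional hint
    have : Finite F := Module.finite_of_finite (ZMod p)
    have := Fintype.ofFinite F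
    have hcard : Fintype.card F = p ^ (minpoly (ZMod p) z).natDegree := by
      rw [← IntermediateField.adjoin.finrank hint, ← Nat.card_eq_fintype_card,
        Module.natCard_eq_pow_finrank (K := ZMod p), Nat.card_zmod]
    have h1 := FiniteField.pow_card
      (⟨z, IntermediateField.mem_adjoin_simple_self _ z⟩ : F)
    rw [hcard] at h1
    have h1 : z ^ p ^ (minpoly (ZMod p) z).natDegree = z := congrArg Subtype.val h1
    have hpos : 0 < (minpoly (ZMod p) z).natDegree := minpoly.natDegree_pos hint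
    rcases (by omega : (minpoly (ZMod p) z).natDegree = 1 ∨ (minpoly (ZMod p) z).natDegree = 2)
      with h | h <;> rw [h] at h1
    · rw [pow_two, pow_mul]
      rw [pow_one] at h1
      rw [h1, h1]
    · exact h1
  -- all such elements come from `k`
  let S : Finset K := insert 0 ((Finset.range (p ^ 2 - 1)).image fun i => algebraMap k K (ω ^ i))
  have hS : ∀ x ∈ S, x ∈ Set.range (algebraMap k K) := by
    intro x hx
    rcases Finset.mem_insert.mp hx with rfl | hx
    · exact ⟨0, map_zero _⟩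
    · obtain ⟨i, -, rfl⟩ := Finset.mem_image.mp hx
      exact ⟨_, rfl⟩
  obtain ⟨w, hw⟩ : z ∈ Set.range (algebraMap k K) := by
    refine hS z ?_
    rcases eq_or_ne z 0 with rfl | hz0
    · exact Finset.mem_insert_self _ _
    have h1 : z ^ (p ^ 2 - 1) = 1 := by
      exact ((mul_eq_right₀ hz0).mp (by rw [← pow_succ, Nat.sub_add_cancel (by omega), hzp]))
    have : NeZero (p ^ 2 - 1) := ⟨by omega⟩
    obtain ⟨i, hi, rfl⟩ := (hω.map_of_injective (algebraMap k K).injective).eq_pow_of_pow_eq_one h1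
    refine Finset.mem_insert_of_mem (Finset.mem_image.mpr ⟨i, Finset.mem_range.mpr hi, ?_⟩)
    rw [map_pow]
  refine ⟨w, ?_⟩
  rw [IsRoot, ← map_eq_zero_iff _ (algebraMap k K).injective, eval_map, hom_eval₂, hw, hcast,
    ← IsScalarTower.algebraMap_eq, ← aeval_def, hz]

/-- **The coefficient ring.** -/
theorem exists_coeff (p : ℕ) [Fact p.Prime] :
    ∃ (O : Type) (_ : CommRing O) (_ : IsDomain O) (_ : IsDiscreteValuationRing O)
      (_ : IsAdicComplete (maximalIdeal O) O) (_ : Finite (ResidueField O)) (_ : CharZero O)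
      (_ : CharP (ResidueField O) p),
      (p : O) ∈ maximalIdeal O ∧ (∃ ζ : O, IsPrimitiveRoot ζ p) ∧
      (∀ f : (ZMod p)[X], f.natDegree = 2 →
        ∃ x : ResidueField O, (f.map (ZMod.castHom dvd_rfl _)).IsRoot x) ∧
      ∃ φ : O →+* ball1 ℂ_[p], Function.Injective φ ∧
        ∀ c ∈ maximalIdeal O, ‖(φ c : ℂ_[p])‖ < 1 := by
  classical
  have hp : p.Prime := Fact.out
  have h4 : 4 ≤ p ^ 2 := by nlinarith [hp.two_le]
  have : Finite (ResidueField ℤ_[p]) :=
    Finite.of_equiv _ (PadicInt.residueField (p := p)).symm.toEquiv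
  set N := p * (p ^ 2 - 1)
  have hN : N ≠ 0 := Nat.mul_ne_zero hp.ne_zero (by omega)
  have : NeZero N := ⟨hN⟩
  set K := AlgebraicClosure (FractionRing ℤ_[p])
  have : CharZero (FractionRing ℤ_[p]) :=
    charZero_of_injective_algebraMap (IsFractionRing.injective ℤ_[p] _)
  obtain ⟨μ, hμ⟩ := HasEnoughRootsOfUnity.exists_primitiveRoot K N
  have : Module.Finite ℤ (AdjoinRoot (cyclotomic N ℤ)) :=
    (cyclotomic.monic N ℤ).finite_adjoinRoot
  let θ : AdjoinRoot (cyclotomic N ℤ) →+* K :=
    AdjoinRoot.lift (Int.castRingHom K) μ (by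
      rw [eval₂_eq_eval_map, map_cyclotomic]
      exact hμ.isRoot_cyclotomic (Nat.pos_of_ne_zero hN))
  obtain ⟨O, i1, i2, i3, i4, i5, i6, i7, i8, i9, j, θ', hinj, hjinj, hj, hjθ⟩ :=
    GaloisReps.exists_coeffExt ℤ_[p] θ
  have hpO : (p : O) ∈ maximalIdeal O := by
    rw [← map_natCast (algebraMap ℤ_[p] O)]
    exact map_nonunit (algebraMap ℤ_[p] O) _ (by
      rw [PadicInt.maximalIdeal_eq_span_p]; exact Ideal.mem_span_singleton_self _)
  have hchar : CharP (ResidueField O) p := (CharP.charP_iff_prime_eq_zero hp).2 (by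
    rw [← map_natCast (residue O), residue_eq_zero_iff]; exact hpO)
  set μO := θ' (AdjoinRoot.root _)
  have hμO : IsPrimitiveRoot μO N := by
    refine IsPrimitiveRoot.of_map_of_injective (f := j) ?_ hjinj
    rw [← RingHom.comp_apply, hjθ, AdjoinRoot.lift_root]
    exact hμ
  have hω : IsPrimitiveRoot (residue O (μO ^ p)) (p ^ 2 - 1) := by
    have h1 : IsPrimitiveRoot (μO ^ p) (p ^ 2 - 1) := hμO.pow (Nat.pos_of_ne_zero hN) rfl
    have : NeZero ((p ^ 2 - 1 : ℕ) : ResidueField O) := ⟨fun h => by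
      rw [CharP.cast_eq_zero_iff (ResidueField O) p] at h
      have h5 := Nat.dvd_sub (dvd_pow_self p two_ne_zero) h
      rw [Nat.sub_sub_self (by omega)] at h5
      exact hp.one_lt.ne' (Nat.dvd_one.mp h5)⟩
    have h2 := (h1.isRoot_cyclotomic (by omega)).map (f := residue O)
    rw [map_cyclotomic] at h2
    exact isRoot_cyclotomic_iff.mp h2
  refine ⟨O, i1, i2, i3, i4, i5, i6, hchar, hpO, ⟨μO ^ (p ^ 2 - 1), ?_⟩,
    exists_root_quadratic hω, ?_⟩
  · exact hμO.pow (Nat.pos_of_ne_zero hN) (mul_comm _ _)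
  let ψ : ℤ_[p] →+* ℂ_[p] := (algebraMap ℚ_[p] ℂ_[p]).comp (algebraMap ℤ_[p] ℚ_[p])
  letI := ψ.toAlgebra
  have hψinj : Function.Injective (algebraMap ℤ_[p] ℂ_[p]) :=
    (algebraMap ℚ_[p] ℂ_[p]).injective.comp (IsFractionRing.injective ℤ_[p] ℚ_[p])
  have : Module.IsTorsionFree ℤ_[p] ℂ_[p] :=
    Module.isTorsionFree_iff_algebraMap_injective.mpr hψinj
  have : Module.IsTorsionFree ℤ_[p] O := Module.isTorsionFree_iff_algebraMap_injective.mpr hinj
  have : Algebra.IsAlgebraic ℤ_[p] O := Algebra.IsIntegral.isAlgebraic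
  let φ₀ : O →ₐ[ℤ_[p]] ℂ_[p] := IsAlgClosed.lift
  have hnorm : ∀ x : ℤ_[p], ‖ψ x‖ ≤ 1 := fun x => by
    show ‖algebraMap ℚ_[p] ℂ_[p] (x : ℚ_[p])‖ ≤ 1
    rw [norm_algebraMap']
    exact x.norm_le_one
  have hball : ∀ c : O, φ₀ c ∈ ball1 ℂ_[p] := fun c => by
    refine norm_le_one_of_isIntegral ?_
    obtain ⟨P, hP, hP0⟩ := (Algebra.IsIntegral.isIntegral (R := ℤ_[p]) c).map φ₀
    refine ⟨P.map (ψ.codRestrict (ball1 ℂ_[p]) hnorm), hP.map _, ?_⟩
    rw [eval₂_map]
    exact hP0
  refine ⟨φ₀.toRingHom.codRestrict _ hball, fun a b h => ?_, fun c hc => ?_⟩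
  · have hker : RingHom.ker φ₀.toRingHom = ⊥ :=
      Ideal.eq_bot_of_comap_eq_bot (R := ℤ_[p]) (by
        rw [eq_bot_iff]
        intro z hz
        refine hψinj ?_
        rw [map_zero, ← AlgHom.commutes φ₀]
        exact hz)
    exact (RingHom.injective_iff_ker_eq_bot _).mpr hker (congrArg Subtype.val h)
  · show ‖φ₀ c‖ < 1
    obtain ⟨k, hk⟩ : ∃ k, maximalIdeal O ^ k ≤ Ideal.span {(p : O)} := by
      refine Ideal.exists_pow_le_of_le_radical_of_fg ?_ (IsNoetherian.noetherian _)
      rw [Ideal.radical_eq_sInf]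
      refine le_sInf fun P hP => ?_
      have hne : P ≠ ⊥ := fun h => by
        have := hP.1 (Ideal.mem_span_singleton_self _)
        rw [h, Ideal.mem_bot] at this
        exact (Nat.cast_ne_zero.mpr hp.ne_zero) this
      have := hP.2
      exact (IsLocalRing.eq_maximalIdeal (Ideal.IsPrime.isMaximal this hne)).ge
    obtain ⟨u, hu⟩ := Ideal.mem_span_singleton'.mp (hk (Ideal.pow_mem_pow hc k))
    have hk0 : k ≠ 0 := by
      rintro rfl
      rw [pow_zero, Ideal.one_eq_top, top_le_iff, Ideal.span_singleton_eq_top] at hk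
      exact hpO hk
    have hp1 : ‖(p : ℂ_[p])‖ < 1 := by
      rw [← map_natCast (algebraMap ℚ_[p] ℂ_[p]), norm_algebraMap']
      exact Padic.norm_p_lt_one
    have h1 : ‖φ₀ c‖ ^ k < 1 := by
      rw [← norm_pow, ← map_pow, ← hu, map_mul, map_natCast, norm_mul]
      calc ‖φ₀ u‖ * ‖(p : ℂ_[p])‖ ≤ 1 * ‖(p : ℂ_[p])‖ :=
            mul_le_mul_of_nonneg_right (hball u) (norm_nonneg _)
        _ < 1 := by rw [one_mul]; exact hp1
    exact (pow_lt_one_iff_of_nonneg (norm_nonneg _) hk0).mp h1

end Fermat.Agent.RT.Assembly
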