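import Fermat.Agent.FiniteFlat.JTorsion
import Fermat.Agent.GaloisReps.Flat
import Fermat.Agent.GaloisReps.OfInjective
import Fermat.Agent.EichlerShimura.InjectiveProof
import Fermat.Agent.NewformLocal.Toric.Assembly
import Fermat.Agent.GaloisReps.UnipotentModel
import Fermat.Agent.Semistable.General

/-!
# The models of the Jacobians used in the assembly
-/

set_option autoImplicit false

noncomputable section

namespace Fermat.Agent.RT.Assembly

open GaloisReps (HeckeGaloisModel ModelLevel)
open FiniteFlat (GalOrder)

/-- The congruences on the torsion of `J₀(N)`. -/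
theorem congruenceProperty (N p : ℕ) [NeZero N] [Fact p.Prime] : GaloisReps.CongruenceProperty N p :=
  GaloisReps.congruenceProperty_all EichlerShimura.injectiveOnTorsion_all N p

/-- The model of `J₀(N)` at `p`. -/
def model (N p : ℕ) [NeZero N] [Fact p.Prime] : HeckeGaloisModel N p :=
  GaloisReps.modelOfCongruence (congruenceProperty N p)

theorem nonempty_model : ∀ (N p : ℕ) [NeZero N] [Fact p.Prime], Nonempty (HeckeGaloisModel N p) :=
  fun N p _ _ => ⟨model N p⟩

/-- Unipotence and the quartic relation at the primes exactly dividing the level, on the models. -/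
def LocalModelInput : Prop :=
  ∀ (N p q : ℕ) [NeZero N] [Fact p.Prime], q.Prime → q ≠ p → q ∣ N → ¬ q ^ 2 ∣ N →
    NewformLocal.UnipotentAt (model N p) q ∧ NewformLocal.Toric.QuarticAt (model N p) q

/-- The two relations hold on the models. -/
theorem localModelInput : LocalModelInput := fun _ _ _ _ _ hq hqp hqN hq2 =>
  ⟨GaloisReps.unipotentAt_modelOfCongruence _ hq hqp (Semistable.torsionUnipotentAt hq hqN hq2),
    NewformLocal.Toric.quarticAt_modelOfCongruence _ hq hqp hq2⟩

/-- The levels of the model are finite flat at `p` not dividing the level. -/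
theorem nonempty_galOrder_model (N p : ℕ) [NeZero N] [Fact p.Prime] (n : ℕ) (hpN : ¬ p ∣ N) :
    Nonempty (GalOrder p (ModelLevel (model N p) n)) := by
  have hp : p.Prime := Fact.out
  obtain ⟨A, hA⟩ := Arith.exists_liesOverPrime hp
  obtain ⟨O, -⟩ := FiniteFlat.exists_galOrder_jTor (N := N) (k := n) hA hp hpN
  exact GaloisReps.nonempty_galOrder_modelLevel (GaloisReps.torsionIso N p (GaloisReps.conjProperty N))
    (GaloisReps.torsionGalois N p (congruenceProperty N p)) n
    (X := FiniteFlat.JTor N p n)
    { toFun := fun x => x, map_zero' := rfl, map_add' := fun _ _ => rfl }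
    (fun _ _ h => h) (fun _ _ => rfl) O

end Fermat.Agent.RT.Assembly
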