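import Fermat.Agent.RT.Assembly.LevelInstance
import Fermat.Agent.RT.Assembly.Models
import Fermat.Agent.RT.Assembly.Coeff
import Fermat.Agent.RT.GammaH.RankBound
import Fermat.Agent.ConductorLevel.Raise

/-!
# No residual system is minimal at places with scalar decomposition groups

A residual representation congruent to a form of squarefree level `M₀`, ramified at `2`, with
scalar decomposition groups at the odd primes of `M₀`, is congruent to a form of lower level.
-/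

set_option autoImplicit false
set_option linter.style.haveILetI false

noncomputable section

open IsLocalRing Module Polynomial
open CongruenceSubgroup ModularFormClass
open Fermat.Agent.Deform Fermat.Agent.Arith Fermat.Agent.CFT.Tangent Fermat.Agent.RT.Germ

namespace Fermat.Agent.RT.Assembly

local notation "Q̄" => AlgebraicClosure ℚ

theorem isCongruentForm_mono {k : Type} [Field k] {S S' : Finset ℕ} (h : S ⊆ S') {abar : ℕ → k}
    {M : ℕ} {g : CuspForm (Gamma0 M) 2} (hg : IsCongruentForm S abar g) :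
    IsCongruentForm S' abar g :=
  ⟨hg.1, hg.2.choose, fun ℓ hℓ hℓS => hg.2.choose_spec ℓ hℓ fun h' => hℓS (h h')⟩

/-- A newform below a congruent level. -/
theorem exists_newform_congruent {k : Type} [Field k] {S : Finset ℕ} {abar : ℕ → k} {M : ℕ}
    (hM : M ≠ 0) (hS : ∀ q : ℕ, q.Prime → q ∣ M → q ∈ S) (h : IsCongruentLevel S abar M) :
    ∃ M' : ℕ, M' ∣ M ∧ ∃ g : CuspForm (Gamma0 M') 2, g.IsNewform ∧ IsCongruentForm S abar g := by
  obtain ⟨f, hf, φ, hφ⟩ := h
  obtain ⟨M', hM', g, hg, hgf⟩ := ConductorLevel.exists_newform_below hM hf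
  exact ⟨M', hM', g, hg, hg.1, φ, fun ℓ hℓ hℓS a ha =>
    hφ ℓ hℓ hℓS a (ha.trans (hgf ℓ hℓ fun hd => hℓS (hS ℓ hℓ hd)))⟩

/-- Scalar generators give a scalar decomposition group. -/
theorem exists_smul_one_of_decomposition {k : Type} [Field k] {r : Gal →* M2 k}
    (hr : GaloisFactorsThroughFiniteLevel r) {v : ℕ} [Fact v.Prime]
    (hinert : ∀ g ∈ (padicPlace v).inertiaSubgroupIn ℚ, r g = 1) {F : Gal}
    (hF : (padicPlace v).IsFrobeniusAt F v) {e : k} (he : r F = e • 1) {g : Gal}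
    (hg : g ∈ (padicPlace v).decompositionSubgroup ℚ) : ∃ c : k, r g = c • (1 : M2 k) := by
  obtain ⟨L, hL, hLn, hL'⟩ := exists_common_level hr (⊥ : Submodule k (Gal → M2 k))
    (fun b hb => by
      rw [(Submodule.mem_bot k).1 hb]
      exact ⟨⊥, inferInstance, fun _ _ => rfl⟩)
  obtain ⟨i, τ, hτ, hagree⟩ := exists_frobenius_mul_inertia L hF hg
  refine ⟨e ^ i, ?_⟩
  have h1 : r ((F ^ i * τ)⁻¹ * g) = 1 := (hL' _ fun x hx => by
    rw [AlgEquiv.mul_apply, hagree x hx, ← AlgEquiv.mul_apply, inv_mul_cancel,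
      AlgEquiv.one_apply]).1
  rw [← mul_inv_cancel_left (F ^ i * τ) g, map_mul, h1, mul_one, map_mul, hinert τ hτ, mul_one,
    map_pow, he, _root_.smul_pow, one_pow]

variable {O : Type} [CommRing O] [IsDomain O] [IsDiscreteValuationRing O]
  [IsAdicComplete (maximalIdeal O) O] [Finite (ResidueField O)] [CharZero O]

omit [IsAdicComplete (maximalIdeal O) O] [Finite (ResidueField O)] [CharZero O] in
/-- No congruent newform is new at a prime `q ≡ 1` with distinct Frobenius eigenvalues. -/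
theorem not_dvd_level_of_distinct {p : ℕ} [Fact p.Prime] [CharP (ResidueField O) p]
    {ρbar : ResidualGaloisRep (ResidueField O)} {abar : ℕ → ResidueField O}
    (hdetbar : ∀ (σ : Gal) (m : ℕ), (∀ μ : Q̄, μ ^ p = 1 → σ μ = μ ^ m) →
      LinearMap.det (ρbar.ρ σ) = (m : ResidueField O))
    (bb : Basis (Fin 2) (ResidueField O) ρbar.V)
    (hspecial : ∀ (S : Finset ℕ) (M : ℕ) [NeZero M] (g : CuspForm (Gamma0 M) 2), g.IsNewform →
      IsCongruentForm S abar g → ∀ q : ℕ, q.Prime → q ≠ p → q ∣ M → ¬ q ^ 2 ∣ M →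
      ∀ A : ValuationSubring Q̄, A.LiesOverPrime q → ∀ φ : Gal, A.IsFrobeniusAt φ q →
        LinearMap.trace (ResidueField O) ρbar.V (ρbar.ρ φ) ^ 2 = ((q : ResidueField O) + 1) ^ 2)
    {q : ℕ} (hq : q.Prime) (hq1 : p ∣ q - 1)
    (hdist : ∀ A : ValuationSubring Q̄, A.LiesOverPrime q → ∀ φ : Gal, A.IsFrobeniusAt φ q →
      ∃ α β : ResidueField O, α ≠ β ∧ (matRes ρbar bb φ).trace = α + β ∧
        (matRes ρbar bb φ).det = α * β)
    {S : Finset ℕ} {M : ℕ} {g : CuspForm (Gamma0 M) 2} (hg : g.IsNewform)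
    (hcg : IsCongruentForm S abar g) (hM : Squarefree M) : ¬ q ∣ M := by
  intro hqM
  have : NeZero M := ⟨hM.ne_zero⟩
  have hqp : q ≠ p := fun h => by
    have h2 := hq.two_le
    have := Nat.le_of_dvd (by omega) hq1
    omega
  have hq1' : (q : ResidueField O) = 1 := by
    obtain ⟨t, ht⟩ := hq1
    have h' : (q : ResidueField O) = ((1 + p * t : ℕ) : ResidueField O) :=
      congrArg Nat.cast (by have := hq.two_le; omega)
    rw [h', Nat.cast_add, Nat.cast_mul, CharP.cast_eq_zero (ResidueField O) p, zero_mul, add_zero, Nat.cast_one]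
  obtain ⟨A, hA⟩ := Arith.exists_liesOverPrime hq
  obtain ⟨φ, hφ⟩ := Arith.exists_isFrobeniusAt hA hq
  have h1 := hspecial S M g hg hcg q hq hqp hqM
    (fun h => hq.not_isUnit (hM q (by rwa [← sq]))) A hA φ hφ
  have h2 : LinearMap.det (ρbar.ρ φ) = (q : ResidueField O) := hdetbar φ q fun μ hμ =>
    GaloisReps.frobenius_apply_root (m := p) hA hq hφ (by simpa using hμ) fun h =>
      hqp ((Nat.prime_dvd_prime_iff_eq hq Fact.out).1 h)
  obtain ⟨α, β, hne, htr, hdet⟩ := hdist A hA φ hφ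
  rw [LinearMap.trace_eq_matrix_trace _ bb, show LinearMap.toMatrix bb bb (ρbar.ρ φ) =
    matRes ρbar bb φ from rfl, htr, hq1'] at h1
  rw [← LinearMap.det_toMatrix bb, show LinearMap.toMatrix bb bb (ρbar.ρ φ) =
    matRes ρbar bb φ from rfl, hdet, hq1'] at h2
  exact hne (sub_eq_zero.1 ((pow_eq_zero_iff two_ne_zero).1
    (by linear_combination h1 - 4 * h2)))

set_option maxHeartbeats 1600000 in
/-- **The patching argument at the places of a minimal level.** -/
theorem false_of_minimal_congruent {p : ℕ} [Fact p.Prime] [CharP (ResidueField O) p]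
    (hp5 : 5 ≤ p) (hp : (p : O) ∈ maximalIdeal O) {ζ : O} (hζ : IsPrimitiveRoot ζ p)
    (φ : O →+* ball1 ℂ_[p]) (hφinj : Function.Injective φ)
    (hφ : ∀ c ∈ maximalIdeal O, ‖(φ c : ℂ_[p])‖ < 1)
    (hE : ∀ (v R M : ℕ) [Fact v.Prime] [NeZero R] [NeZero M] (g : CuspForm (Gamma0 M) 2),
      InertiaTW.TraceInertia p v R M g)
    (hloc : LocalModelInput) (hcore : TangentCoreInput)
    {ρbar : ResidualGaloisRep (ResidueField O)} (habs : ρbar.IsAbsolutelyIrreducible)
    (hdetbar : ∀ (σ : Gal) (m : ℕ), (∀ μ : Q̄, μ ^ p = 1 → σ μ = μ ^ m) →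
      LinearMap.det (ρbar.ρ σ) = (m : ResidueField O))
    (bb : Basis (Fin 2) (ResidueField O) ρbar.V)
    (hTW : CFT.TWPrimes.TWHyp (matRes ρbar bb))
    (hbarI : ∀ q : ℕ, q.Prime → q ≠ p → ∀ A : ValuationSubring Q̄, A.LiesOverPrime q →
      ∀ σ ∈ A.inertiaSubgroupIn ℚ, LinearMap.trace (ResidueField O) ρbar.V (ρbar.ρ σ) = 2)
    (hram : ∀ A : ValuationSubring Q̄, A.LiesOverPrime 2 →
      ∃ σ ∈ A.inertiaSubgroupIn ℚ, ρbar.ρ σ ≠ 1)
    (hunr : ∀ q : ℕ, q.Prime → q ≠ 2 → q ≠ p → ρbar.IsUnramifiedAt q)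
    {S₀ : Finset ℕ} {abar : ℕ → ResidueField O} (hpS : p ∈ S₀)
    (hbar : Glue.HasCharpolys S₀ abar ρbar)
    (hEis : ∀ S : Finset ℕ, ∃ ℓ : ℕ, ℓ.Prime ∧ ℓ ∉ S ∧ abar ℓ ≠ 1 + (ℓ : ResidueField O))
    (hspecial : ∀ (S : Finset ℕ) (M : ℕ) [NeZero M] (g : CuspForm (Gamma0 M) 2), g.IsNewform →
      IsCongruentForm S abar g → ∀ q : ℕ, q.Prime → q ≠ p → q ∣ M → ¬ q ^ 2 ∣ M →
      ∀ A : ValuationSubring Q̄, A.LiesOverPrime q → ∀ φ : Gal, A.IsFrobeniusAt φ q →
        LinearMap.trace (ResidueField O) ρbar.V (ρbar.ρ φ) ^ 2 = ((q : ResidueField O) + 1) ^ 2)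
    {M₀ : ℕ} (hM : Squarefree M₀) (hpM : ¬ p ∣ M₀) (h2M : 2 ∣ M₀)
    (hS₀ : ∀ q : ℕ, q.Prime → q ∣ M₀ → q ∈ S₀) (hodd : ∃ v, v.Prime ∧ v ∣ M₀ ∧ v ≠ 2)
    (hcong : IsCongruentLevel S₀ abar M₀)
    (hmin : ∀ (S : Finset ℕ) (M : ℕ), M ∣ M₀ → IsCongruentLevel S abar M →
      ∀ v : ℕ, v.Prime → v ∣ M₀ → v ≠ 2 → v ∣ M)
    (hscal : ∀ v : ℕ, v.Prime → v ∣ M₀ → v ≠ 2 → ∀ A : ValuationSubring Q̄, A.LiesOverPrime v →
      ∀ F : Gal, A.IsFrobeniusAt F v → ∃ e : ResidueField O, ρbar.ρ F = e • 1) : False := by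
  classical
  have hpp : p.Prime := Fact.out
  have hp2 : p ≠ 2 := by omega
  have : NeZero M₀ := ⟨hM.ne_zero⟩
  have hnot1 : ∀ {v : ℕ}, v.Prime → v ∣ M₀ → v ≠ p := fun {v} _ hvM h => hpM (h ▸ hvM)
  have hsq : ∀ {v L : ℕ}, Squarefree L → v.Prime → ¬ v ^ 2 ∣ L := fun {v L} hL hv h =>
    hv.not_isUnit (hL v (by rwa [← sq]))
  -- the newform of level `M₀` and the congruence at the places
  obtain ⟨M', hM', g₀, hg₀, hcg₀⟩ := exists_newform_congruent hM.ne_zero hS₀ hcong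
  have hM'sq : Squarefree M' := hM.squarefree_of_dvd hM'
  have : NeZero M' := ⟨hM'sq.ne_zero⟩
  have hdetF : ∀ {v : ℕ}, v.Prime → v ≠ p → ∀ {A : ValuationSubring Q̄}, A.LiesOverPrime v →
      ∀ {F : Gal}, A.IsFrobeniusAt F v → LinearMap.det (ρbar.ρ F) = (v : ResidueField O) :=
    fun {v} hv hvp {A} hA {F} hF => hdetbar F v fun μ hμ =>
      GaloisReps.frobenius_apply_root (m := p) hA hv hF (by simpa using hμ) fun h =>
        hvp ((Nat.prime_dvd_prime_iff_eq hv hpp).1 h)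
  have hv1 : ∀ v : ℕ, v.Prime → v ∣ M₀ → v ≠ 2 → p ∣ v - 1 := by
    intro v hv hvM hv2
    obtain ⟨A, hA⟩ := Arith.exists_liesOverPrime hv
    obtain ⟨F, hF⟩ := Arith.exists_isFrobeniusAt hA hv
    obtain ⟨e, he⟩ := hscal v hv hvM hv2 A hA F hF
    have h1 := hspecial S₀ M' g₀ hg₀ hcg₀ v hv (hnot1 hv hvM)
      (hmin S₀ M' hM' ⟨g₀, hg₀.1, hcg₀.2⟩ v hv hvM hv2) (hsq hM'sq hv) A hA F hF
    have h2 := hdetF hv (hnot1 hv hvM) hA hF
    rw [he, map_smul, LinearMap.trace_one, ρbar.finrank_eq, smul_eq_mul] at h1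
    rw [he, LinearMap.det_smul, ρbar.finrank_eq, map_one, mul_one] at h2
    push_cast at h1
    have h3 : ((v : ResidueField O) - 1) ^ 2 = 0 := by linear_combination -h1 + 4 * h2
    have h4 := sub_eq_zero.1 ((pow_eq_zero_iff two_ne_zero).1 h3)
    rw [← Nat.cast_one, CharP.natCast_eq_natCast (ResidueField O) p] at h4
    exact (Nat.modEq_iff_dvd' hv.one_le).1 h4.symm
  -- the places
  let V := {v : ℕ // v ∈ M₀.primeFactors.erase 2}
  let vT : V → ℕ := fun v => v.1
  have hvT : ∀ v : V, (vT v).Prime ∧ vT v ∣ M₀ ∧ vT v ≠ 2 := fun v =>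
    ⟨(Nat.mem_primeFactors.1 (Finset.mem_erase.1 v.2).2).1,
      (Nat.mem_primeFactors.1 (Finset.mem_erase.1 v.2).2).2.1, (Finset.mem_erase.1 v.2).1⟩
  have : ∀ v, Fact (vT v).Prime := fun v => ⟨(hvT v).1⟩
  obtain ⟨v₁, hv₁, hv₁M, hv₁2⟩ := hodd
  let v₀ : V := ⟨v₁, Finset.mem_erase.2 ⟨hv₁2, Nat.mem_primeFactors.2 ⟨hv₁, hv₁M, hM.ne_zero⟩⟩⟩
  have : Nonempty V := ⟨v₀⟩
  set r₀ := matRes ρbar bb with hr₀
  have hr : GaloisFactorsThroughFiniteLevel r₀ := by
    obtain ⟨K, hK, hK'⟩ := ρbar.factorsThroughFiniteLevel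
    refine ⟨K, hK, fun g hg => ?_⟩
    show LinearMap.toMatrixAlgEquiv bb (ρbar.ρ g) = 1
    rw [hK' g hg, map_one]
  have hone : ∀ g, ρbar.ρ g = 1 → r₀ g = 1 := fun g hg => by
    show LinearMap.toMatrixAlgEquiv bb (ρbar.ρ g) = 1
    rw [hg, map_one]
  let T : Finset ℕ := Finset.univ.image vT
  let ST : Finset ℕ := S₀.filter Nat.Prime ∪ ({2, p} ∪ T)
  have hbarT : ∀ v, ∀ A : ValuationSubring Q̄, A.LiesOverPrime (vT v) →
      (∀ σ ∈ A.inertiaSubgroupIn ℚ, ρbar.ρ σ = 1) ∧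
        ∀ F : Gal, A.IsFrobeniusAt F (vT v) → ∃ e : ResidueField O, ρbar.ρ F = e • 1 :=
    fun v A hA => ⟨hunr _ (hvT v).1 (hvT v).2.2 (hnot1 (hvT v).1 (hvT v).2.1) A hA,
      fun F hF => hscal _ (hvT v).1 (hvT v).2.1 (hvT v).2.2 A hA F hF⟩
  obtain ⟨r, hr'⟩ := hcore (ResidueField O) p hp2 r₀ hr hTW
    (fun σ m hm => (LinearMap.det_toMatrix bb _).trans (hdetbar σ m hm))
    {2, p} T ST (by simp) (fun x hx => Finset.mem_union_right _ (Finset.mem_union_left _ hx))
    (fun x hx => Finset.mem_union_right _ (Finset.mem_union_right _ hx))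
    (by
      rw [Finset.disjoint_left]
      intro q hq hqT
      obtain ⟨v, -, rfl⟩ := Finset.mem_image.1 hqT
      rcases Finset.mem_insert.1 hq with h | h
      · exact (hvT v).2.2 h
      · exact hnot1 (hvT v).1 (hvT v).2.1 (Finset.mem_singleton.1 h))
    (by
      intro q hq
      rcases Finset.mem_union.1 hq with h | h
      · exact (Finset.mem_filter.1 h).2
      rcases Finset.mem_union.1 h with h | h
      · rcases Finset.mem_insert.1 h with rfl | h
        · exact Nat.prime_two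
        · exact (Finset.mem_singleton.1 h) ▸ hpp
      · obtain ⟨v, -, rfl⟩ := Finset.mem_image.1 h
        exact (hvT v).1)
    (fun q hq hqS A hA σ hσ => by
      simp only [Finset.mem_insert, Finset.mem_singleton, not_or] at hqS
      exact hone σ (hunr q hq hqS.1 hqS.2 A hA σ hσ))
    (fun q hq hqp _ => by
      simp only [Finset.mem_insert, Finset.mem_singleton] at hq
      obtain rfl := hq.resolve_right hqp
      refine ⟨fun τ hτ => ⟨?_, ?_⟩, ?_⟩
      · rw [← hbarI 2 Nat.prime_two hqp _ (CFT.Local.padicPlace_liesOverPrime 2) τ hτ,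
          LinearMap.trace_eq_matrix_trace _ bb]
        rfl
      · refine (LinearMap.det_toMatrix bb _).trans ((hdetbar τ 1 fun μ hμ => ?_).trans Nat.cast_one)
        rw [pow_one]
        exact Arith.inertia_root (CFT.Local.padicPlace_liesOverPrime 2) Nat.prime_two hτ hμ
          fun h => hqp ((Nat.prime_dvd_prime_iff_eq Nat.prime_two hpp).1 h)
      · obtain ⟨τ, hτ, hne⟩ := hram _ (CFT.Local.padicPlace_liesOverPrime 2)
        refine ⟨τ, hτ, fun h => hne ((LinearMap.toMatrixAlgEquiv bb).injective ?_)⟩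
        rw [map_one]
        exact h)
    (fun v hv _ g hg => by
      obtain ⟨w, -, rfl⟩ := Finset.mem_image.1 hv
      obtain ⟨F, hF⟩ := Arith.exists_isFrobeniusAt (CFT.Local.padicPlace_liesOverPrime (vT w))
        (hvT w).1
      obtain ⟨e, he⟩ := (hbarT w _ (CFT.Local.padicPlace_liesOverPrime (vT w))).2 F hF
      refine exists_smul_one_of_decomposition hr
        (fun g hg => hone g ((hbarT w _ (CFT.Local.padicPlace_liesOverPrime (vT w))).1 g hg)) hF
        (e := e) ?_ hg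
      show LinearMap.toMatrixAlgEquiv bb (ρbar.ρ F) = e • 1
      rw [he, map_smul, map_one])
  -- the constants
  have h2k : (2 : ResidueField O) ≠ 0 := hTW.two
  have h2O : IsUnit (2 : O) := by
    by_contra h
    exact h2k (by rw [← map_ofNat (residue O) 2, (residue_eq_zero_iff _).2 h])
  obtain ⟨c, hc⟩ := h2O.exists_right_inv
  have hζp : ζ ^ p = 1 := hζ.pow_eq_one
  set ζi : O := ζ ^ (p - 1)
  have hζi : ζ * ζi = 1 := by rw [← pow_succ', Nat.sub_add_cancel (by omega), hζp]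
  have hζne : ζ ≠ ζi := fun h => by
    have h2 : ζ ^ 2 = 1 := by rw [sq]; nth_rw 2 [h]; exact hζi
    exact absurd (Nat.le_of_dvd two_pos ((hζ.pow_eq_one_iff_dvd 2).1 h2)) (by omega)
  obtain ⟨π, hπ⟩ := IsDiscreteValuationRing.exists_irreducible O
  have hπm : maximalIdeal O = Ideal.span {π} := hπ.maximalIdeal_eq
  set δ : V → O := fun _ => c * (ζ - ζi)
  set g := r - 3 * Fintype.card V
  set B := 2 ^ (r + 1) * Module.finrank ℂ (CuspForm (Gamma0 M₀) 2)
  -- a level for each `n`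
  have key : ∀ n, 3 * Fintype.card V ≤ r ∧
      Nonempty (PatchLevel δ (frobRel (g := g) c v₀ (vT v₀)) π p r B n) := by
    intro n
    obtain ⟨qv, hqinj, hqv, hdist, hcoreAt⟩ := hr' n
    have hq2 : ∀ i, qv i ≠ 2 := fun i h => (hqv i).2.1
      (Finset.mem_union_right _ (Finset.mem_union_left _ (by rw [h]; simp)))
    have hqp : ∀ i, qv i ≠ p := fun i h => (hqv i).2.1
      (Finset.mem_union_right _ (Finset.mem_union_left _ (by rw [h]; simp)))
    have hqM : ∀ i, ¬ qv i ∣ M₀ := fun i h => (hqv i).2.1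
      (Finset.mem_union_left _ (Finset.mem_filter.2 ⟨hS₀ _ (hqv i).1 h, (hqv i).1⟩))
    set L := M₀ * ∏ i, qv i with hLdef
    have hLq : ∀ q : ℕ, q.Prime → q ∣ L → q ∣ M₀ ∨ ∃ i, qv i = q := fun q hq h => by
      rcases hq.dvd_mul.1 h with h | h
      · exact Or.inl h
      · obtain ⟨i, -, hi⟩ := (Prime.dvd_finsetProd_iff hq.prime _).1 h
        exact Or.inr ⟨i, ((Nat.prime_dvd_prime_iff_eq hq (hqv i).1).1 hi).symm⟩
    have hL : Squarefree L := by
      rw [hLdef, Nat.squarefree_mul (Nat.coprime_prod_right_iff.2 fun i _ =>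
        (Nat.Prime.coprime_iff_not_dvd (hqv i).1).2 (hqM i) |>.symm)]
      refine ⟨hM, Finset.squarefree_prod_of_pairwise_isCoprime ?_ fun i _ =>
        (hqv i).1.squarefree⟩
      intro i _ j _ hij
      exact Nat.coprime_iff_isRelPrime.1
        ((Nat.coprime_primes (hqv i).1 (hqv j).1).2 (hqinj.ne hij))
    have : NeZero L := ⟨hL.ne_zero⟩
    set S := S₀ ∪ Finset.univ.image qv
    have hS : ∀ q : ℕ, q.Prime → q ∣ L → q ∈ S := fun q hq h => (hLq q hq h).elim
      (fun h => Finset.mem_union_left _ (hS₀ q hq h))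
      fun ⟨i, hi⟩ => Finset.mem_union_right _ (Finset.mem_image.2 ⟨i, Finset.mem_univ _, hi⟩)
    -- a congruent newform has level dividing `M₀`
    have hlow : ∀ (M : ℕ) (f : CuspForm (Gamma0 M) 2), f.IsNewform → M ∣ L →
        IsCongruentForm S abar f → ∀ i, ¬ qv i ∣ M := fun M f hf hML hcf i =>
      not_dvd_level_of_distinct hdetbar bb hspecial (hqv i).1
        ((dvd_pow_self p (Nat.succ_ne_zero n)).trans (hqv i).2.2) (hdist i) hf hcf
        (hL.squarefree_of_dvd hML)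
    have hncl : ¬ IsCongruentLevel S abar (L / vT v₀) := by
      intro h
      have hd : vT v₀ ∣ L := dvd_mul_of_dvd_left (hvT v₀).2.1 _
      obtain ⟨M, hMd, f, hf, hcf⟩ := exists_newform_congruent
        ((Nat.div_ne_zero_iff_of_dvd hd).2 ⟨hL.ne_zero, (hvT v₀).1.ne_zero⟩)
        (fun q hq h => hS q hq (h.trans (Nat.div_dvd_of_dvd hd))) h
      have hML : M ∣ L := hMd.trans (Nat.div_dvd_of_dvd hd)
      have hcop : M.Coprime (∏ i, qv i) := Nat.coprime_prod_right_iff.2 fun i _ =>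
        ((Nat.Prime.coprime_iff_not_dvd (hqv i).1).2 (hlow M f hf hML hcf i)).symm
      have hvM : vT v₀ ∣ M := hmin S M (hcop.dvd_of_dvd_mul_right hML) ⟨f, hcf⟩ _ (hvT v₀).1
        (hvT v₀).2.1 (hvT v₀).2.2
      exact (hvT v₀).1.not_isUnit
        (hL (vT v₀) ((Nat.dvd_div_iff_mul_dvd hd).1 (hvM.trans hMd)))
    have hHex : ∀ ψ : (ZMod L)ˣ →* LevelGroup V p r n, Function.Surjective ψ →
        ∃ H : HeckeModule L ψ S abar, 0 < H.d ∧ H.d ≤ B := by
      intro ψ hψ
      obtain ⟨H, hiff, -, hbd⟩ := GammaH.congruent_rank_bound hp5 (isPGroup_levelGroup p n) hψ hL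
        hS (hEis S)
      refine ⟨H, hiff.2 ?_, ?_⟩
      · obtain ⟨hf₀, φ₀, hφ₀⟩ := hcg₀
        obtain ⟨h, hh, hhg⟩ := ConductorLevel.exists_raise hL (hM'.trans (dvd_mul_right M₀ _)) hf₀
        exact ⟨h, hh, φ₀, fun ℓ hℓ hℓS a ha => hφ₀ ℓ hℓ
          (fun h' => hℓS (Finset.mem_union_left _ h')) a
          (ha.trans (hhg ℓ hℓ fun hd => hℓS (hS ℓ hℓ hd)))⟩
      · refine (hbd M₀ (Finset.univ.image qv) ?_ ?_ ?_).trans (le_of_eq ?_)
        · rw [Finset.prod_image fun a _ b _ h => hqinj h]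
        · intro q hq
          obtain ⟨i, -, rfl⟩ := Finset.mem_image.1 hq
          exact (hqv i).1
        · rintro M f hf hML ⟨q, hq, hqf⟩ hcf
          obtain ⟨i, -, rfl⟩ := Finset.mem_image.1 hq
          exact hlow M f hf hML hcf i hqf
        · rw [Finset.card_image_of_injective _ hqinj, Finset.card_univ, Fintype.card_fin]
    refine exists_patchLevel_of_heckeModule (π := π) hp hp2 hc hζi hζp hζne hπm
      (fun M _ => model M p) hE (fun N _ => congruenceProperty N p)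
      (fun M v _ => hloc M p v) (fun M _ N => nonempty_galOrder_model M p N) habs hdetbar hbarI bb
      hTW.split (Finset.mem_union_left _ hpS)
      (fun ℓ hℓ hℓS => hbar ℓ hℓ fun h => hℓS (Finset.mem_union_left _ h)) vT qv hL hS
      (fun h => (hLq p hpp h).elim hpM fun ⟨i, hi⟩ => hqp i hi)
      (dvd_mul_of_dvd_left h2M _) ?_ ?_ ?_ ?_ ?_
      (fun v => hv1 _ (hvT v).1 (hvT v).2.1 (hvT v).2.2)
      (fun i => (hqv i).2.2) hbarT hcoreAt v₀ hncl hHex
    · rintro (v | i)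
      · exact (hvT v).1
      · exact (hqv i).1
    · rintro (v | i)
      · exact dvd_mul_of_dvd_left (hvT v).2.1 _
      · exact dvd_mul_of_dvd_right (Finset.dvd_prod_of_mem _ (Finset.mem_univ i)) _
    · rintro (a | a) (b | b) h
      · exact congrArg Sum.inl (Subtype.ext h)
      · exact absurd ((show vT a = qv b from h) ▸ (hvT a).2.1) (hqM b)
      · exact absurd ((show qv a = vT b from h).symm ▸ (hvT b).2.1) (hqM a)
      · exact congrArg Sum.inr (hqinj h)
    · rintro (v | i)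
      · exact (hvT v).2.2
      · exact hq2 i
    · intro q hq hqL
      rcases hLq q hq hqL with h | ⟨i, hi⟩
      · rcases eq_or_ne q 2 with h2 | h2
        · exact Or.inl h2
        · exact Or.inr ⟨Sum.inl ⟨q, Finset.mem_erase.2 ⟨h2, Nat.mem_primeFactors.2
            ⟨hq, h, hM.ne_zero⟩⟩⟩, rfl⟩
      · exact Or.inr ⟨Sum.inr i, hi⟩
  -- the coefficient of the square
  have hres1 : residue O ζ = 1 := by
    have h0 : (residue O ζ - 1) ^ p = 0 := by
      rw [sub_pow_char, ← map_pow, hζp, map_one, one_pow, sub_self]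
    exact sub_eq_zero.1 ((pow_eq_zero_iff hpp.ne_zero).1 h0)
  have hδm : c * (ζ - ζi) ∈ maximalIdeal O := by
    refine Ideal.mul_mem_left _ _ ((residue_eq_zero_iff _).1 ?_)
    rw [map_sub, map_pow, hres1, one_pow, sub_self]
  have h2norm : ‖(2 : ℂ_[p])‖ = 1 := by
    have h1 : (2 : ℂ_[p]) * (φ c : ℂ_[p]) = 1 := by
      have := congrArg ((ball1 ℂ_[p]).subtype.comp φ) hc
      rwa [map_mul, map_ofNat, map_one] at this
    have h2 : ‖(φ c : ℂ_[p])‖ ≤ 1 := (φ c).2
    have h3 : ‖(2 : ℂ_[p])‖ ≤ 1 := by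
      simpa using IsUltrametricDist.norm_natCast_le_one ℂ_[p] 2
    have h4 := congrArg norm h1
    rw [norm_mul, norm_one] at h4
    nlinarith [norm_nonneg (2 : ℂ_[p]), norm_nonneg (φ c : ℂ_[p])]
  let d : Coord V (Fin g) →₀ ℕ := Finsupp.single (Sum.inl (v₀, 1, 0)) 2
  have hcoef := coeff_mem_maximalIdeal_of_patchLevels φ hφinj hφ h2norm
    (δ := δ)
    (fun _ => mul_ne_zero (fun h => by rw [h, mul_zero] at hc; exact zero_ne_one hc)
      (sub_ne_zero.2 hζne))
    (fun _ => hδm) hpp hp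
    (r := r) (by rw [Nat.card_eq_fintype_card]; exact (Nat.add_sub_cancel' (key 0).1).symm)
    hπ (fun n => (key n).2) (d := d)
    (fun v l => Finsupp.single_eq_of_ne (by simp))
  have hone' : MvPowerSeries.coeff d (frobRel (g := g) c v₀ (vT v₀)) = 1 := by
    have hne : d ≠ Finsupp.single (Sum.inl (v₀, 1, 1)) 1 + Finsupp.single (Sum.inl (v₀, 1, 2)) 1 := by
      intro h
      have := DFunLike.congr_fun h (Sum.inl (v₀, 1, 0))
      simp [d] at this
    have hd0 : d ≠ 0 := by simp [d]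
    simp only [frobRel, map_add, map_sub, MvPowerSeries.coeff_C, if_neg hd0, sub_zero]
    rw [MvPowerSeries.X_pow_eq, MvPowerSeries.coeff_monomial, if_pos rfl, MvPowerSeries.X_def,
      MvPowerSeries.X_def, MvPowerSeries.monomial_mul_monomial, MvPowerSeries.coeff_monomial,
      if_neg hne, add_zero]
  rw [hone'] at hcoef
  exact (maximalIdeal.isMaximal O).ne_top ((Ideal.eq_top_iff_one _).2 hcoef)

end Fermat.Agent.RT.Assembly
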