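import Mathlib

/-!
# Matrices of diamond-linear endomorphisms

A module with a basis over a group ring gives, for every character of the group, matrices for the
endomorphisms commuting with the group.
-/

set_option autoImplicit false

noncomputable section

namespace Fermat.Agent.RT.Assembly

variable {O M Δ : Type*} [CommRing O] [AddCommGroup M] [Module O M] [CommGroup Δ]

/-- A basis over the group ring of `Δ`. -/
structure DiaBasis (dia : Δ →* Module.End O M) (d : ℕ) where
  basis : Fin d → M
  bijective : Function.Bijective fun c : Fin d × Δ →₀ O =>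
    c.sum fun iδ x => x • dia iδ.2 (basis iδ.1)

namespace DiaBasis

variable {dia : Δ →* Module.End O M} {d : ℕ} (B : DiaBasis dia d)

/-- Coordinates over `O`. -/
def coord : M ≃ₗ[O] (Fin d × Δ →₀ O) :=
  (LinearEquiv.ofBijective (Finsupp.linearCombination O fun iδ : Fin d × Δ => dia iδ.2 (B.basis iδ.1))
    B.bijective).symm

theorem coord_symm_single (iδ : Fin d × Δ) (x : O) :
    B.coord.symm (Finsupp.single iδ x) = x • dia iδ.2 (B.basis iδ.1) := by
  rw [coord, LinearEquiv.symm_symm]
  exact Finsupp.linearCombination_single O x iδ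

theorem linearMap_ext {N : Type*} [AddCommGroup N] [Module O N] {f g : M →ₗ[O] N}
    (h : ∀ i δ, f (dia δ (B.basis i)) = g (dia δ (B.basis i))) : f = g := by
  suffices f ∘ₗ B.coord.symm.toLinearMap = g ∘ₗ B.coord.symm.toLinearMap by
    exact LinearMap.ext fun m => by simpa using LinearMap.congr_fun this (B.coord m)
  refine Finsupp.lhom_ext fun iδ x => ?_
  simp only [LinearMap.comp_apply, LinearEquiv.coe_coe, coord_symm_single, map_smul, h]

variable {R : Type*} [CommRing R] [Algebra O R] (χ : Δ →* R)

/-- The specialisation of coordinates along a character. -/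
def spec : M →ₗ[O] (Fin d → R) :=
  (Finsupp.linearCombination O fun iδ : Fin d × Δ => (Pi.single iδ.1 (χ iδ.2) : Fin d → R)) ∘ₗ
    B.coord.toLinearMap

theorem spec_dia_basis (i : Fin d) (δ : Δ) :
    B.spec χ (dia δ (B.basis i)) = Pi.single i (χ δ) := by
  have : B.coord (dia δ (B.basis i)) = Finsupp.single (i, δ) 1 := by
    rw [← B.coord.eq_symm_apply, coord_symm_single, one_smul]
  simp [spec, this]

theorem spec_basis (i : Fin d) : B.spec χ (B.basis i) = Pi.single i 1 := by
  simpa using B.spec_dia_basis χ i 1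

theorem spec_dia (δ : Δ) (m : M) : B.spec χ (dia δ m) = χ δ • B.spec χ m := by
  suffices B.spec χ ∘ₗ dia δ = (χ δ • LinearMap.id : (Fin d → R) →ₗ[O] (Fin d → R)) ∘ₗ B.spec χ from
    LinearMap.congr_fun this m
  refine B.linearMap_ext fun i ε => ?_
  rw [LinearMap.comp_apply, ← Module.End.mul_apply, ← map_mul, LinearMap.comp_apply,
    spec_dia_basis, spec_dia_basis, map_mul]
  simp [← Pi.single_smul]

/-- The matrix of an endomorphism along a character. -/
def mat (a : Module.End O M) : Matrix (Fin d) (Fin d) R :=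
  Matrix.of fun i j => B.spec χ (a (B.basis j)) i

theorem spec_apply {a : Module.End O M} (ha : ∀ δ, a * dia δ = dia δ * a) (m : M) :
    B.spec χ (a m) = (B.mat χ a).mulVec (B.spec χ m) := by
  suffices B.spec χ ∘ₗ a = ((B.mat χ a).mulVecLin.restrictScalars O) ∘ₗ B.spec χ from
    LinearMap.congr_fun this m
  refine B.linearMap_ext fun j δ => ?_
  rw [LinearMap.comp_apply, ← Module.End.mul_apply, ha, Module.End.mul_apply, spec_dia,
    LinearMap.comp_apply, spec_dia_basis, LinearMap.restrictScalars_apply, Matrix.mulVecLin_apply]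
  funext i
  simp [mat, mul_comm]

theorem mat_mul {a b : Module.End O M} (ha : ∀ δ, a * dia δ = dia δ * a) :
    B.mat χ (a * b) = B.mat χ a * B.mat χ b := by
  ext i j
  have h := congrFun (B.spec_apply χ ha (b (B.basis j))) i
  rw [← Module.End.mul_apply] at h
  exact h

theorem mat_dia (δ : Δ) : B.mat χ (dia δ) = χ δ • 1 := by
  ext i j
  simp [mat, spec_dia_basis, Pi.single_apply, Matrix.one_apply]

theorem mat_one : B.mat χ 1 = 1 := by
  rw [← map_one dia, mat_dia, map_one, one_smul]

theorem mat_add (a b : Module.End O M) : B.mat χ (a + b) = B.mat χ a + B.mat χ b := by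
  ext i j
  simp [mat]

theorem mat_smul (c : O) (a : Module.End O M) : B.mat χ (c • a) = c • B.mat χ a := by
  ext i j
  simp [mat]

variable {A : Subalgebra O (Module.End O M)} (hA : ∀ a ∈ A, ∀ δ, a * dia δ = dia δ * a)

/-- The ring map to matrices. -/
def rep : A →ₐ[O] Matrix (Fin d) (Fin d) R :=
  AlgHom.ofLinearMap
    { toFun := fun a => B.mat χ a
      map_add' := fun a b => B.mat_add χ a b
      map_smul' := fun c a => B.mat_smul χ c a }
    (B.mat_one χ) fun a _ => B.mat_mul χ (hA a a.2)

theorem rep_apply (a : A) : B.rep χ hA a = B.mat χ a := rfl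

/-- An endomorphism killed by the norm of a subgroup has matrices in every ideal modulo which the
character is constant on the cosets. -/
theorem mat_mem_of_mul_norm [Finite Δ] {a : Module.End O M}
    (K : Subgroup Δ) [Fintype K] (hK : (∑ k : K, dia (k : Δ)) * a = 0) (I : Ideal R)
    (hI : ∀ δ : Δ, ∀ k ∈ K, χ (δ * k) - χ δ ∈ I) (i j : Fin d) : B.mat χ a i j ∈ I := by
  classical
  have := Fintype.ofFinite Δ
  set x := B.coord (a (B.basis j)) with hx
  have hsum : ∀ δ : Δ, ∑ k : K, x (i, δ * k) = 0 := by
    intro δ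
    have hm : a (B.basis j) = x.sum fun iδ c => c • dia iδ.2 (B.basis iδ.1) := by
      conv_lhs => rw [← B.coord.symm_apply_apply (a (B.basis j)), ← hx,
        ← Finsupp.sum_single x]
      rw [map_finsuppSum]
      simp [coord_symm_single]
    have h := congrArg B.coord (LinearMap.congr_fun hK (B.basis j))
    rw [Module.End.mul_apply, LinearMap.sum_apply, LinearMap.zero_apply, map_zero, map_sum] at h
    have key : ∀ k : K, B.coord (dia k (a (B.basis j))) =
        x.sum fun iδ c => Finsupp.single (iδ.1, (k : Δ) * iδ.2) c := by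
      intro k
      rw [hm, map_finsuppSum, map_finsuppSum]
      refine Finsupp.sum_congr fun iδ _ => ?_
      rw [map_smul, ← Module.End.mul_apply, ← map_mul, ← B.coord.eq_symm_apply, coord_symm_single]
    have hk : ∀ k : K, B.coord (dia k (a (B.basis j))) (i, δ) = x (i, δ * (k : Δ)⁻¹) := by
      intro k
      rw [key k, Finsupp.sum_apply, Finsupp.sum_fintype _ _ (by simp),
        Finset.sum_eq_single (i, δ * (k : Δ)⁻¹)]
      · simp [mul_comm δ]
      · rintro ⟨i', ε⟩ _ hne
        refine Finsupp.single_eq_of_ne fun he => hne ?_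
        simp only [Prod.mk.injEq] at he
        obtain ⟨rfl, he⟩ := he
        rw [he]
        simp [mul_comm (k : Δ)]
      · simp
    have h' := DFunLike.congr_fun h (i, δ)
    rw [Finsupp.finsetSum_apply, Finset.sum_congr rfl fun k _ => hk k, Finsupp.zero_apply] at h'
    rw [← h']
    exact Fintype.sum_equiv (Equiv.inv K) _ _ fun k => by simp
  have hmat : B.mat χ a i j = ∑ δ : Δ, x (i, δ) • χ δ := by
    simp only [mat, Matrix.of_apply, spec, LinearMap.comp_apply, LinearEquiv.coe_coe, ← hx,
      Finsupp.linearCombination_apply]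
    rw [Finsupp.sum_fintype _ _ (by simp), Finset.sum_apply, Fintype.sum_prod_type,
      Finset.sum_eq_single i]
    · simp
    · intro i' _ hne
      simp [hne.symm]
    · simp
  rw [hmat]
  let s : Δ → Δ := fun δ => ((QuotientGroup.mk δ : Δ ⧸ K)).out
  have hs : ∀ δ, ∃ k ∈ K, δ = s δ * k := fun δ => by
    obtain ⟨k, hk⟩ := QuotientGroup.mk_out_eq_mul K δ
    exact ⟨(k : Δ)⁻¹, K.inv_mem k.2, by simp only [s, hk]; group⟩
  have hzero : ∑ δ : Δ, x (i, δ) • χ (s δ) = 0 := by
    rw [← Finset.sum_fiberwise (s := Finset.univ) (g := fun δ => (QuotientGroup.mk δ : Δ ⧸ K))]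
    refine Finset.sum_eq_zero fun c _ => ?_
    calc ∑ δ with QuotientGroup.mk δ = c, x (i, δ) • χ (s δ)
        = ∑ δ with QuotientGroup.mk δ = c, x (i, δ) • χ c.out :=
          Finset.sum_congr rfl fun δ hδ => by simp [s, (Finset.mem_filter.mp hδ).2]
      _ = (∑ k : K, x (i, c.out * k)) • χ c.out := by
          rw [← Finset.sum_smul]
          congr 1
          refine (Finset.sum_bij (fun (k : K) _ => c.out * (k : Δ)) (fun k _ => ?_)
            (fun k _ l _ h => Subtype.ext (mul_left_cancel h)) (fun δ hδ => ?_) fun k _ => rfl).symm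
          · simp [QuotientGroup.mk_mul_of_mem]
          · refine ⟨⟨c.out⁻¹ * δ, ?_⟩, Finset.mem_univ _, by simp⟩
            rw [← QuotientGroup.eq, QuotientGroup.out_eq']
            exact ((Finset.mem_filter.mp hδ).2).symm
      _ = 0 := by rw [hsum, zero_smul]
  have hdiff : ∑ δ : Δ, x (i, δ) • χ δ = ∑ δ : Δ, x (i, δ) • (χ δ - χ (s δ)) := by
    simp only [smul_sub, Finset.sum_sub_distrib, hzero, sub_zero]
  rw [hdiff]
  refine Ideal.sum_mem _ fun δ _ => Submodule.smul_of_tower_mem _ _ ?_
  obtain ⟨k, hk, hδ⟩ := hs δ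
  have := hI (s δ) k hk
  rwa [← hδ] at this

end DiaBasis

end Fermat.Agent.RT.Assembly
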