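import Fermat.Agent.RT.Interface
import Fermat.Agent.RT.Assembly.Quotient

/-!
# The character `(ℤ/L)ˣ → LevelGroup` of a patching level

It is normalised so that the `halfInvExp`-power of the image of a chosen generator at a place is
the standard generator of that place.
-/

set_option autoImplicit false

noncomputable section

namespace Fermat.Agent.RT.Assembly

open scoped Classical

/-- A character of `(ℤ/q)ˣ` with a prescribed value at a generator. -/
theorem exists_logHom {q m : ℕ} [Fact q.Prime] [NeZero m] (hm : m ∣ q - 1) {a : (ZMod q)ˣ}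
    (ha : orderOf a = q - 1) (c : ZMod m) :
    ∃ f : (ZMod q)ˣ →* Multiplicative (ZMod m), f a = Multiplicative.ofAdd c := by
  have hgen : ∀ x, x ∈ Subgroup.zpowers a := fun x => by
    have : Subgroup.zpowers a = ⊤ := Subgroup.eq_top_of_card_eq _ (by
      rw [Nat.card_zpowers, ha, Nat.card_eq_fintype_card, ZMod.card_units])
    rw [this]
    trivial
  have hord : orderOf (Multiplicative.ofAdd c) ∣ orderOf a := by
    rw [ha, orderOf_ofAdd_eq_addOrderOf]
    exact (addOrderOf_dvd_of_nsmul_eq_zero (by rw [nsmul_eq_mul, ZMod.natCast_self, zero_mul])).trans hm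
  exact ⟨monoidHomOfForallMemZpowers hgen hord, monoidHomOfForallMemZpowers_apply_gen hgen hord⟩

/-- A unit with prescribed reductions modulo `v` and `L / v`. -/
theorem exists_unit_crt {L v : ℕ} (hv : v ∣ L) (hcop : v.Coprime (L / v)) (a : (ZMod v)ˣ) :
    ∃ u : (ZMod L)ˣ, ((u : ZMod L).cast : ZMod (L / v)) = 1 ∧ ZMod.unitsMap hv u = a := by
  have hmul : v * (L / v) = L := Nat.mul_div_cancel' hv
  set c : ZMod L ≃+* ZMod v × ZMod (L / v) :=
    (ZMod.ringEquivCongr hmul.symm).trans (ZMod.chineseRemainder hcop) with hc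
  let u : (ZMod L)ˣ :=
    Units.map c.symm.toRingHom.toMonoidHom (MulEquiv.prodUnits.symm (a, 1))
  have hu : c (u : ZMod L) = ((a : ZMod v), 1) := by
    simp [u, MulEquiv.prodUnits]
  have h1 : ∀ x : ZMod L, (ZMod.castHom (Nat.div_dvd_of_dvd hv) (ZMod (L / v))) x = (c x).2 :=
    fun x => RingHom.congr_fun (Subsingleton.elim (ZMod.castHom (Nat.div_dvd_of_dvd hv) _)
      ((RingHom.snd _ _).comp c.toRingHom)) x
  have h2 : ∀ x : ZMod L, (ZMod.castHom hv (ZMod v)) x = (c x).1 :=
    fun x => RingHom.congr_fun (Subsingleton.elim (ZMod.castHom hv _)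
      ((RingHom.fst _ _).comp c.toRingHom)) x
  refine ⟨u, ?_, Units.ext ?_⟩
  · have := h1 (u : ZMod L)
    rw [hu, ZMod.castHom_apply] at this
    exact this
  · have := h2 (u : ZMod L)
    rw [hu, ZMod.castHom_apply] at this
    rw [ZMod.unitsMap_val]
    exact this

variable {V : Type} [Fintype V] {r : ℕ}

/-- The standard generator at a place. -/
def levelGen (p n : ℕ) : V ⊕ Fin r → LevelGroup V p r n
  | Sum.inl v => Multiplicative.ofAdd ((Pi.single v 1 : V → ZMod p), 0)
  | Sum.inr i => Multiplicative.ofAdd (0, Pi.single i 1)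

theorem card_levelGroup (p n : ℕ) [NeZero p] :
    Nat.card (LevelGroup V p r n) = p ^ (Fintype.card V + n * r) := by
  rw [Nat.card_congr Multiplicative.toAdd, Nat.card_prod, Nat.card_fun, Nat.card_fun,
    Nat.card_zmod, Nat.card_zmod, Nat.card_eq_fintype_card, Nat.card_eq_fintype_card,
    Fintype.card_fin, ← pow_mul, ← pow_add]

theorem isPGroup_levelGroup (p n : ℕ) [NeZero p] : IsPGroup p (LevelGroup V p r n) :=
  IsPGroup.of_card (card_levelGroup p n)

theorem coprime_halfInvExp [Nonempty V] {p : ℕ} [Fact p.Prime] (hp2 : p ≠ 2) (n : ℕ) :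
    (halfInvExp (LevelGroup V p r n)).Coprime p := by
  have hp : p.Prime := Fact.out
  rw [Nat.coprime_comm, hp.coprime_iff_not_dvd]
  intro h
  obtain ⟨k, hk⟩ : ∃ k, Nat.card (LevelGroup V p r n) = p * k := by
    rw [card_levelGroup]
    exact dvd_pow_self p (by have := Fintype.card_pos (α := V); omega)
  obtain ⟨t, ht⟩ : Odd (Nat.card (LevelGroup V p r n)) := by
    rw [card_levelGroup]
    exact (hp.odd_of_ne_two hp2).pow
  rw [halfInvExp, ht, Nat.add_sub_cancel, Nat.mul_div_cancel_left _ two_pos] at h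
  have h1 : p ∣ 1 := (Nat.dvd_add_right (dvd_mul_of_dvd_right h 2)).mp (ht ▸ ⟨k, hk⟩)
  exact hp.one_lt.ne' (Nat.dvd_one.mp h1)

/-- The character of a level, given inverses of the twisting exponent. -/
theorem exists_levelPsi_aux {p : ℕ} [Fact p.Prime] (n : ℕ) {L : ℕ}
    (hL : Squarefree L) (vT : V → ℕ) (qv : Fin r → ℕ)
    (hprime : ∀ x, (Sum.elim vT qv x).Prime) (hdvd : ∀ x, Sum.elim vT qv x ∣ L)
    (hinj : Function.Injective (Sum.elim vT qv))
    (hT : ∀ v, p ∣ vT v - 1) (hQ : ∀ i, p ^ n ∣ qv i - 1)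
    (a : ∀ x, (ZMod (Sum.elim vT qv x))ˣ) (ha : ∀ x, orderOf (a x) = Sum.elim vT qv x - 1)
    (cT : ZMod p) (hcT : V → (halfInvExp (LevelGroup V p r n) : ZMod p) * cT = 1)
    (cQ : ZMod (p ^ n)) (hcQ : Fin r → (halfInvExp (LevelGroup V p r n) : ZMod (p ^ n)) * cQ = 1) :
    ∃ ψ : (ZMod L)ˣ →* LevelGroup V p r n, Function.Surjective ψ ∧
      (∀ x, ∀ u : (ZMod L)ˣ, ((u : ZMod L).cast : ZMod (L / Sum.elim vT qv x)) = 1 →
        ZMod.unitsMap (hdvd x) u = a x →
          ψ u ^ halfInvExp (LevelGroup V p r n) = levelGen p n x) ∧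
      (∀ w : ℕ, (∀ x, Sum.elim vT qv x ≠ w) → w.Prime → w ∣ L → ∀ u : (ZMod L)ˣ,
        ((u : ZMod L).cast : ZMod (L / w)) = 1 → ψ u = 1) := by
  have hp : p.Prime := Fact.out
  set h := halfInvExp (LevelGroup V p r n)
  have hfT : ∀ v, ∃ f : (ZMod (Sum.elim vT qv (Sum.inl v)))ˣ →* Multiplicative (ZMod p),
      f (a (Sum.inl v)) = Multiplicative.ofAdd cT := fun v =>
    haveI : Fact (Sum.elim vT qv (Sum.inl v)).Prime := ⟨hprime (Sum.inl v)⟩
    exists_logHom (q := Sum.elim vT qv (Sum.inl v)) (hT v) (ha (Sum.inl v)) cT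
  have hfQ : ∀ i, ∃ f : (ZMod (Sum.elim vT qv (Sum.inr i)))ˣ →* Multiplicative (ZMod (p ^ n)),
      f (a (Sum.inr i)) = Multiplicative.ofAdd cQ := fun i =>
    haveI : Fact (Sum.elim vT qv (Sum.inr i)).Prime := ⟨hprime (Sum.inr i)⟩
    exists_logHom (q := Sum.elim vT qv (Sum.inr i)) (hQ i) (ha (Sum.inr i)) cQ
  choose fT hfT using hfT
  choose fQ hfQ using hfQ
  let ψ : (ZMod L)ˣ →* LevelGroup V p r n :=
    { toFun := fun u => Multiplicative.ofAdd
        (fun v => (fT v (ZMod.unitsMap (hdvd (Sum.inl v)) u)).toAdd,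
          fun i => (fQ i (ZMod.unitsMap (hdvd (Sum.inr i)) u)).toAdd)
      map_one' := by
        refine (congrArg Multiplicative.ofAdd ?_).trans ofAdd_zero
        refine Prod.ext (funext fun v => ?_) (funext fun i => ?_)
        · show (fT v _).toAdd = 0
          rw [map_one, map_one, toAdd_one]
        · show (fQ i _).toAdd = 0
          rw [map_one, map_one, toAdd_one]
      map_mul' := fun u u' => by
        rw [← ofAdd_add]
        refine congrArg Multiplicative.ofAdd (Prod.ext (funext fun v => ?_) (funext fun i => ?_))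
        · show (fT v _).toAdd = (fT v _).toAdd + (fT v _).toAdd
          rw [map_mul, map_mul, toAdd_mul]
        · show (fQ i _).toAdd = (fQ i _).toAdd + (fQ i _).toAdd
          rw [map_mul, map_mul, toAdd_mul] }
  have hone : ∀ (x : V ⊕ Fin r) (w : ℕ), w.Prime → Sum.elim vT qv x ≠ w → w ∣ L →
      ∀ u : (ZMod L)ˣ, ((u : ZMod L).cast : ZMod (L / w)) = 1 →
        ZMod.unitsMap (hdvd x) u = 1 := by
    intro x w hw hne hwL u hu
    have hd : Sum.elim vT qv x ∣ L / w := by
      refine Nat.dvd_div_of_mul_dvd ?_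
      exact ((Nat.coprime_primes hw (hprime x)).mpr (Ne.symm hne)).mul_dvd_of_dvd_of_dvd hwL (hdvd x)
    have h1 : ZMod.unitsMap (Nat.div_dvd_of_dvd hwL) u = 1 := Units.ext (by
      rw [ZMod.unitsMap_val]; exact hu)
    rw [← ZMod.unitsMap_comp hd (Nat.div_dvd_of_dvd hwL), MonoidHom.comp_apply, h1, map_one]
  have hgen : ∀ x, ∀ u : (ZMod L)ˣ, ((u : ZMod L).cast : ZMod (L / Sum.elim vT qv x)) = 1 →
      ZMod.unitsMap (hdvd x) u = a x → ψ u ^ h = levelGen p n x := by
    intro x u hu hua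
    have hoth : ∀ y, y ≠ x → ZMod.unitsMap (hdvd y) u = 1 := fun y hy =>
      hone y _ (hprime x) (fun e => hy (hinj e)) (hdvd x) u hu
    apply Multiplicative.toAdd.injective
    rw [toAdd_pow]
    rcases x with v | i
    · refine Prod.ext (funext fun w => ?_) (funext fun j => ?_)
      · show h • (fT w (ZMod.unitsMap _ u)).toAdd = (Pi.single v 1 : V → ZMod p) w
        rcases eq_or_ne w v with rfl | hwv
        · rw [hua, hfT, toAdd_ofAdd, Pi.single_eq_same, nsmul_eq_mul, hcT w]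
        · rw [hoth (Sum.inl w) (by simpa using hwv), map_one, toAdd_one, smul_zero,
            Pi.single_eq_of_ne hwv]
      · show h • (fQ j (ZMod.unitsMap _ u)).toAdd = 0
        rw [hoth (Sum.inr j) Sum.inr_ne_inl, map_one, toAdd_one, smul_zero]
    · refine Prod.ext (funext fun w => ?_) (funext fun j => ?_)
      · show h • (fT w (ZMod.unitsMap _ u)).toAdd = 0
        rw [hoth (Sum.inl w) Sum.inl_ne_inr, map_one, toAdd_one, smul_zero]
      · show h • (fQ j (ZMod.unitsMap _ u)).toAdd = (Pi.single i 1 : Fin r → ZMod (p ^ n)) j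
        rcases eq_or_ne j i with rfl | hji
        · rw [hua, hfQ, toAdd_ofAdd, Pi.single_eq_same, nsmul_eq_mul, hcQ j]
        · rw [hoth (Sum.inr j) (by simpa using hji), map_one, toAdd_one, smul_zero,
            Pi.single_eq_of_ne hji]
  refine ⟨ψ, ?_, hgen, fun w hwne hw hwL u hu => ?_⟩
  · have hmem : ∀ x, levelGen p n x ∈ MonoidHom.range ψ := fun x => by
      obtain ⟨u, hu, hua⟩ := exists_unit_crt (hdvd x)
        ((hprime x).coprime_iff_not_dvd.mpr fun hd => (hprime x).not_isUnit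
          (hL _ ((Nat.dvd_div_iff_mul_dvd (hdvd x)).1 hd))) (a x)
      exact ⟨u ^ h, by rw [map_pow, hgen x u hu hua]⟩
    intro δ
    have hδ : δ = (∏ v, levelGen p n (Sum.inl v) ^ (δ.toAdd.1 v).val) *
        ∏ i, levelGen p n (Sum.inr i) ^ (δ.toAdd.2 i).val := by
      apply Multiplicative.toAdd.injective
      rw [toAdd_mul, toAdd_prod, toAdd_prod]
      simp only [toAdd_pow, levelGen, toAdd_ofAdd]
      refine Prod.ext (funext fun v => ?_) (funext fun i => ?_) <;>
        simp only [Prod.fst_add, Prod.snd_add, Prod.fst_sum, Prod.snd_sum, Prod.smul_fst,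
          Prod.smul_snd, Pi.add_apply, Finset.sum_apply, Pi.smul_apply, Pi.single_apply, smul_ite,
          smul_zero, nsmul_one, Pi.zero_apply, Finset.sum_const_zero, add_zero, zero_add,
          Finset.sum_ite_eq, Finset.mem_univ, if_true, ZMod.natCast_zmod_val]
    rw [hδ]
    exact mul_mem (Subgroup.prod_mem _ fun v _ => Subgroup.pow_mem _ (hmem _) _)
      (Subgroup.prod_mem _ fun i _ => Subgroup.pow_mem _ (hmem _) _)
  · show Multiplicative.ofAdd _ = 1
    rw [← ofAdd_zero]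
    refine congrArg _ (Prod.ext (funext fun v => ?_) (funext fun i => ?_))
    · show (fT v _).toAdd = 0
      rw [hone (Sum.inl v) w hw (hwne _) hwL u hu, map_one, toAdd_one]
    · show (fQ i _).toAdd = 0
      rw [hone (Sum.inr i) w hw (hwne _) hwL u hu, map_one, toAdd_one]

/-- **The character of a level.** -/
theorem exists_levelPsi [Nonempty V] {p : ℕ} [Fact p.Prime] (hp2 : p ≠ 2) (n : ℕ) {L : ℕ}
    (hL : Squarefree L) (vT : V → ℕ) (qv : Fin r → ℕ)
    (hprime : ∀ x, (Sum.elim vT qv x).Prime) (hdvd : ∀ x, Sum.elim vT qv x ∣ L)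
    (hinj : Function.Injective (Sum.elim vT qv))
    (hT : ∀ v, p ∣ vT v - 1) (hQ : ∀ i, p ^ n ∣ qv i - 1)
    (a : ∀ x, (ZMod (Sum.elim vT qv x))ˣ) (ha : ∀ x, orderOf (a x) = Sum.elim vT qv x - 1) :
    ∃ ψ : (ZMod L)ˣ →* LevelGroup V p r n, Function.Surjective ψ ∧
      (∀ x, ∀ u : (ZMod L)ˣ, ((u : ZMod L).cast : ZMod (L / Sum.elim vT qv x)) = 1 →
        ZMod.unitsMap (hdvd x) u = a x →
          ψ u ^ halfInvExp (LevelGroup V p r n) = levelGen p n x) ∧
      (∀ w : ℕ, (∀ x, Sum.elim vT qv x ≠ w) → w.Prime → w ∣ L → ∀ u : (ZMod L)ˣ,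
        ((u : ZMod L).cast : ZMod (L / w)) = 1 → ψ u = 1) := by
  have hp : p.Prime := Fact.out
  set h := halfInvExp (LevelGroup V p r n)
  have hcp : h.Coprime p := coprime_halfInvExp hp2 n
  let cT : ZMod p := ((ZMod.unitOfCoprime h hcp)⁻¹ : (ZMod p)ˣ)
  let cQ : ZMod (p ^ n) := ((ZMod.unitOfCoprime h (hcp.pow_right n))⁻¹ : (ZMod (p ^ n))ˣ)
  have hcT : (h : ZMod p) * cT = 1 := by
    rw [← ZMod.coe_unitOfCoprime h hcp]
    exact Units.mul_inv _
  have hcQ : (h : ZMod (p ^ n)) * cQ = 1 := by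
    rw [← ZMod.coe_unitOfCoprime h (hcp.pow_right n)]
    exact Units.mul_inv _
  exact exists_levelPsi_aux n hL vT qv hprime hdvd hinj hT hQ a ha cT (fun _ => hcT) cQ (fun _ => hcQ)

end Fermat.Agent.RT.Assembly
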