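import Fermat.Agent.RT.Assembly.Tame
import Fermat.Agent.RT.Assembly.LevelChar
import Fermat.Agent.Deform.Matrix
import Fermat.Agent.GaloisReps.Unramified

/-!
# Matrices at a place with trivial residual inertia, and the character at one place
-/

set_option autoImplicit false
set_option linter.style.haveILetI false

noncomputable section

namespace Fermat.Agent.RT.Assembly

open IsLocalRing Fermat.Agent.Deform Fermat.Agent.Arith Polynomial

/-- The trace of an endomorphism with a split quadratic characteristic polynomial. -/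
theorem trace_eq_add_of_charpoly {A : Type} [CommRing A] [IsLocalRing A] (ρ : GaloisRepAdic A)
    {σ : Gal} {a b : A} (h : LinearMap.charpoly (ρ.ρ σ) = (X - C a) * (X - C b)) :
    LinearMap.trace A ρ.V (ρ.ρ σ) = a + b := by
  classical
  let e := Module.finBasisOfFinrankEq A ρ.V ρ.finrank_eq
  rw [LinearMap.trace_eq_matrix_trace A e, Matrix.trace_eq_neg_charpoly_coeff,
    LinearMap.charpoly_toMatrix, h]
  simp [Fintype.card_fin, sub_mul, mul_sub, coeff_X, coeff_C]
  ring

/-- Matrices congruent to one die in high `p`-power. -/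
theorem map_pow_prime_pow_eq_one {A : Type} [CommRing A] [IsLocalRing A] {p : ℕ}
    (hp : (p : A) ∈ maximalIdeal A) {X : M2 A}
    (hX : X.map (residue A) = 1) (N : ℕ) :
    (X ^ p ^ N).map (Ideal.Quotient.mk (maximalIdeal A ^ (N + 1))) = 1 := by
  have hmem : ∀ (j : ℕ) (Y : M2 A), Y.map (Ideal.Quotient.mk (maximalIdeal A ^ j)) = 1 ↔
      ∀ a b, Y a b - (1 : M2 A) a b ∈ maximalIdeal A ^ j := fun j Y => by
    rw [← Matrix.ext_iff]
    refine forall₂_congr fun a b => ?_
    rw [Matrix.map_apply, ← Ideal.Quotient.eq_zero_iff_mem, map_sub, sub_eq_zero,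
      Matrix.one_apply, Matrix.one_apply, apply_ite (Ideal.Quotient.mk _), map_one, map_zero]
  induction N with
  | zero =>
    refine (hmem (0 + 1) (X ^ p ^ 0)).2 fun a b => ?_
    have h := congrFun (congrFun hX a) b
    rw [Matrix.map_apply] at h
    have h' : X a b - (1 : M2 A) a b ∈ maximalIdeal A := by
      refine (residue_eq_zero_iff (X a b - (1 : M2 A) a b)).1 ?_
      rw [(residue A).map_sub, h]
      by_cases hab : a = b
      · subst hab; rw [Matrix.one_apply_eq, Matrix.one_apply_eq, (residue A).map_one, sub_self]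
      · rw [Matrix.one_apply_ne hab, Matrix.one_apply_ne hab, (residue A).map_zero, sub_self]
    simpa using h'
  | succ N ih =>
    set Y := X ^ p ^ N
    rw [hmem] at ih
    rw [hmem, pow_succ p N, pow_mul]
    intro a b
    have hS : ∀ a b, (∑ i ∈ Finset.range p, Y ^ i) a b ∈ maximalIdeal A := by
      have hY : (residue A).mapMatrix Y = 1 := by
        ext a b
        rw [RingHom.mapMatrix_apply, Matrix.map_apply, Matrix.one_apply,
          show Y a b = (Y a b - (1 : M2 A) a b) + (1 : M2 A) a b by ring, map_add,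
          (residue_eq_zero_iff _).2 (Ideal.pow_le_self (Nat.succ_ne_zero N) (ih a b)), zero_add,
          Matrix.one_apply, apply_ite (residue A), map_one, map_zero]
      have h := congrArg (residue A).mapMatrix (rfl : ∑ i ∈ Finset.range p, Y ^ i = _)
      intro a b
      rw [← residue_eq_zero_iff]
      show ((residue A).mapMatrix (∑ i ∈ Finset.range p, Y ^ i)) a b = 0
      rw [map_sum]
      simp only [map_pow, hY, one_pow, Finset.sum_const, Finset.card_range, nsmul_one]
      rw [← Matrix.diagonal_natCast, Matrix.diagonal_apply]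
      split_ifs
      · rw [← map_natCast (residue A), residue_eq_zero_iff]; exact hp
      · rfl
    have e : Y ^ p - 1 = (∑ i ∈ Finset.range p, Y ^ i) * (Y - 1) := (geom_sum_mul Y p).symm
    rw [← Matrix.sub_apply, e, Matrix.mul_apply, pow_succ' (maximalIdeal A) (N + 1)]
    refine Ideal.sum_mem _ fun j _ => Ideal.mul_mem_mul (hS a j) ?_
    rw [Matrix.sub_apply]
    exact ih j b

variable {A : Type} [CommRing A] [IsLocalRing A] [IsAdicComplete (maximalIdeal A) A]

/-- The relation between a Frobenius and tame inertia. -/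
theorem conj_eq_pow {p v : ℕ} (hp : p.Prime) (hpA : (p : A) ∈ maximalIdeal A)
    {ru : Gal →* M2 A} (hc : IsCont ru) {P : ValuationSubring QBar} (hP : P.LiesOverPrime v)
    (hv : v.Prime) (hvp : v ≠ p)
    (hinert : ∀ g ∈ P.inertiaSubgroupIn ℚ, (ru g).map (residue A) = 1) {σ φ : Gal}
    (hσ : σ ∈ P.inertiaSubgroupIn ℚ) (hφ : P.IsFrobeniusAt φ v) :
    ru φ * ru σ = ru σ ^ v * ru φ := by
  obtain ⟨hν, htriv⟩ := tameTrivial_frobenius_conj hφ hσ
  set ν := φ * σ * φ⁻¹ * (σ ^ v)⁻¹ with hνdef
  have h1 : ru ν = 1 := by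
    ext a b
    refine sub_eq_zero.mp (IsHausdorff.haus' (I := maximalIdeal A) _ fun N => ?_)
    rw [SModEq.zero, smul_eq_mul, Ideal.mul_top]
    let ρN : Gal →* M2 (A ⧸ maximalIdeal A ^ (N + 1)) :=
      (Ideal.Quotient.mk (maximalIdeal A ^ (N + 1))).mapMatrix.toMonoidHom.comp ru
    have hfin : ∃ L : IntermediateField ℚ QBar, FiniteDimensional ℚ L ∧
        ∀ g : Gal, (∀ x ∈ L, g x = x) → ρN g = 1 := by
      obtain ⟨L, hL, hL'⟩ := hc (N + 1)
      refine ⟨L, hL, fun g hg => ?_⟩
      ext a b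
      show Ideal.Quotient.mk _ (ru g a b) = _
      rw [Matrix.one_apply, show ru g a b = (ru g a b - (1 : M2 A) a b) + (1 : M2 A) a b by ring,
        map_add, Ideal.Quotient.eq_zero_iff_mem.2 (hL' g hg a b), zero_add, Matrix.one_apply,
        apply_ite (Ideal.Quotient.mk _), map_one, map_zero]
    have hνN : ρN ν = 1 := eq_one_of_tameTrivial ρN hfin hP hv hν htriv (n := p ^ N)
      (fun h => hvp ((Nat.prime_dvd_prime_iff_eq hv hp).mp (hv.dvd_of_dvd_pow h)))
      (by
        show (Ideal.Quotient.mk (maximalIdeal A ^ (N + 1))).mapMatrix (ru ν) ^ p ^ N = 1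
        rw [← map_pow, RingHom.mapMatrix_apply]
        exact map_pow_prime_pow_eq_one hpA (hinert ν hν) N)
    have h := congrFun (congrFun hνN a) b
    refine Ideal.pow_le_pow_right N.le_succ (Ideal.Quotient.eq_zero_iff_mem.1 ?_)
    rw [map_sub, sub_eq_zero]
    refine h.trans ?_
    rw [Matrix.one_apply, Matrix.one_apply, apply_ite (Ideal.Quotient.mk _), map_one, map_zero]
  have h2 : φ * σ = ν * (σ ^ v * φ) := by
    rw [hνdef]; group
  rw [← map_mul, h2, map_mul, h1, one_mul, map_mul, map_pow]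

/-- The image of the units trivial away from `v` lies in the group of the generator at `v`. -/
theorem psi_mem_zpowers {L v : ℕ} [Fact v.Prime] {Δ : Type} [CommGroup Δ] [Finite Δ]
    (ψ : (ZMod L)ˣ →* Δ) (hv : v ∣ L) (hcop : v.Coprime (L / v)) {a : (ZMod v)ˣ}
    (ha : orderOf a = v - 1) {h : ℕ} (hh : h.Coprime (Nat.card Δ)) {gen : Δ}
    (hgen : ∀ u : (ZMod L)ˣ, ((u : ZMod L).cast : ZMod (L / v)) = 1 →
      ZMod.unitsMap hv u = a → ψ u ^ h = gen)
    {u : (ZMod L)ˣ} (hu : ((u : ZMod L).cast : ZMod (L / v)) = 1) :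
    ψ u ∈ Subgroup.zpowers gen := by
  obtain ⟨ua, hua1, hua2⟩ := exists_unit_crt hv hcop a
  have hmem : ZMod.unitsMap hv u ∈ Subgroup.zpowers a := by
    have : Subgroup.zpowers a = ⊤ := Subgroup.eq_top_of_card_eq _ (by
      rw [Nat.card_zpowers, ha, Nat.card_eq_fintype_card, ZMod.card_units])
    rw [this]; trivial
  obtain ⟨j, hj⟩ := (Submonoid.mem_powers_iff _ _).1
    ((isOfFinOrder_of_finite a).mem_powers_iff_mem_zpowers.2 hmem)
  have hk : ∀ w : (ZMod L)ˣ, ((w : ZMod L).cast : ZMod (L / v)) = 1 →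
      ZMod.unitsMap (Nat.div_dvd_of_dvd hv) w = 1 := fun w hw =>
    Units.ext (by rw [ZMod.unitsMap_val]; exact hw)
  have hinj : ∀ x y : (ZMod L)ˣ, ZMod.unitsMap hv x = ZMod.unitsMap hv y →
      ZMod.unitsMap (Nat.div_dvd_of_dvd hv) x = ZMod.unitsMap (Nat.div_dvd_of_dvd hv) y →
      x = y := by
    intro x y h1 h2
    have hmul : v * (L / v) = L := Nat.mul_div_cancel' hv
    set c : ZMod L ≃+* ZMod v × ZMod (L / v) :=
      (ZMod.ringEquivCongr hmul.symm).trans (ZMod.chineseRemainder hcop)
    refine Units.ext (c.injective (Prod.ext ?_ ?_))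
    · have e : ∀ z : ZMod L, (c z).1 = ZMod.castHom hv (ZMod v) z := fun z =>
        RingHom.congr_fun (Subsingleton.elim ((RingHom.fst _ _).comp c.toRingHom) _) z
      rw [e, e]
      simpa [ZMod.unitsMap_val] using congrArg Units.val h1
    · have e : ∀ z : ZMod L, (c z).2 = ZMod.castHom (Nat.div_dvd_of_dvd hv) (ZMod (L / v)) z :=
        fun z => RingHom.congr_fun (Subsingleton.elim ((RingHom.snd _ _).comp c.toRingHom) _) z
      rw [e, e]
      simpa [ZMod.unitsMap_val] using congrArg Units.val h2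
  have hueq : u = ua ^ j := hinj _ _ (by rw [map_pow, hua2, hj])
    (by rw [map_pow, hk u hu, hk ua hua1, one_pow])
  obtain ⟨s, hs⟩ := exists_pow_eq_self_of_coprime (x := ψ ua) (n := h)
    (hh.of_dvd_right (orderOf_dvd_natCard _))
  rw [hueq, map_pow, ← hs, hgen ua hua1 hua2, ← pow_mul]
  exact Subgroup.pow_mem _ (Subgroup.mem_zpowers gen) _

end Fermat.Agent.RT.Assembly
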