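import Fermat.Agent.RT.Assembly.Entries
import Fermat.Agent.RT.Glue.FlatDescent
import Fermat.Agent.GaloisReps.PadicHom
import Fermat.Agent.CFT.Tangent.BaseChange
import Fermat.Agent.CFT.Tangent.Dictionary
import Mathlib.NumberTheory.Cyclotomic.CyclotomicCharacter

/-!
# Normalised matrices of a representation and their corestriction to the entries
-/

set_option autoImplicit false
set_option linter.style.haveILetI false

noncomputable section

namespace Fermat.Agent.RT.Assembly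

open IsLocalRing Module Fermat.Agent.Deform

local notation "Q̄" => AlgebraicClosure ℚ

variable {A : Type} [CommRing A] [IsLocalRing A]

/-- Flatness is invariant under equivalence. -/
theorem isFlatAt_of_isEquiv {p : ℕ} {ρ ρ' : GaloisRepAdic A} (e : ρ.IsEquiv ρ')
    (h : ρ.IsFlatAt p) : ρ'.IsFlatAt p := by
  obtain ⟨e⟩ := e
  refine ⟨h.1, fun I hI => ?_⟩
  obtain ⟨H, i1, i2, hfin, hflat, hco, f, hadd, hgal⟩ := h.2 I hI
  let E : (ρ.V ⧸ (I • (⊤ : Submodule A ρ.V))) ≃ₗ[A] (ρ'.V ⧸ (I • (⊤ : Submodule A ρ'.V))) :=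
    Submodule.Quotient.equiv _ _ e.toLinearEquiv (by
      rw [Submodule.map_smul'', Submodule.map_top, LinearEquiv.range])
  refine ⟨H, i1, i2, hfin, hflat, hco, f.trans E.toEquiv, fun a b => ?_, fun σ a b hab => ?_⟩
  · simp only [Equiv.trans_apply, LinearEquiv.coe_toEquiv, hadd, map_add]
  · simp only [Equiv.trans_apply, LinearEquiv.coe_toEquiv, hgal σ a b hab]
    obtain ⟨x, hx⟩ := Submodule.Quotient.mk_surjective _ (f a)
    rw [← hx]
    exact congrArg Submodule.Quotient.mk (e.map_apply σ x)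

/-- The determinant condition is invariant under equivalence. -/
theorem detIsCyclotomic_of_isEquiv {p : ℕ} {ρ ρ' : GaloisRepAdic A} (e : ρ.IsEquiv ρ')
    (h : ρ.DetIsCyclotomic p) : ρ'.DetIsCyclotomic p := by
  obtain ⟨e⟩ := e
  refine ⟨h.1, fun n σ a ha => ?_⟩
  rw [show ρ'.ρ σ = e.toLinearEquiv.conj (ρ.ρ σ) from LinearMap.ext fun x => by
    rw [LinearEquiv.conj_apply_apply, e.map_apply, e.toLinearEquiv.apply_symm_apply],
    LinearEquiv.conj_apply, LinearMap.comp_assoc, LinearMap.det_conj]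
  exact h.2 n σ a ha

/-- The cyclotomic character at all levels. -/
theorem exists_padicInt_cyclotomic (p : ℕ) [Fact p.Prime] (σ : Gal) :
    ∃ c : ℤ_[p], ∀ (n a : ℕ), (∀ μ : Q̄, μ ^ p ^ n = 1 → σ μ = μ ^ a) →
      c - (a : ℤ_[p]) ∈ Ideal.span {(p : ℤ_[p]) ^ n} := by
  haveI : ∀ i, HasEnoughRootsOfUnity Q̄ (p ^ i) := fun i => inferInstance
  refine ⟨(cyclotomicCharacter Q̄ p (σ : Q̄ ≃+* Q̄)).val, fun n a ha => ?_⟩
  obtain ⟨ζ, hζ⟩ : ∃ ζ : Q̄, IsPrimitiveRoot ζ (p ^ n) :=
    HasEnoughRootsOfUnity.exists_primitiveRoot Q̄ (p ^ n)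
  rw [← PadicInt.ker_toZModPow, RingHom.mem_ker, map_sub, map_natCast, sub_eq_zero]
  have h1 := cyclotomicCharacter.spec (L := Q̄) p (n := n) (σ : Q̄ ≃+* Q̄) ζ hζ.pow_eq_one
  rw [show (σ : Q̄ ≃+* Q̄) ζ = σ ζ from rfl, ha ζ hζ.pow_eq_one] at h1
  have h2 : a % p ^ n =
      (((cyclotomicCharacter Q̄ p (σ : Q̄ ≃+* Q̄)).val).toZModPow n).val := by
    refine hζ.pow_inj (Nat.mod_lt _ (pow_pos (Fact.out : p.Prime).pos n)) (ZMod.val_lt _) ?_
    rw [← pow_eq_pow_mod a hζ.pow_eq_one, h1]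
  rw [← ZMod.natCast_zmod_val (((cyclotomicCharacter Q̄ p (σ : Q̄ ≃+* Q̄)).val).toZModPow n), ← h2,
    ZMod.natCast_mod]

/-- Elements congruent modulo every power of `p` are equal. -/
theorem eq_of_forall_sub_mem [IsAdicComplete (maximalIdeal A) A] {p : ℕ}
    (hp : (p : A) ∈ maximalIdeal A) {x y : A}
    (h : ∀ n : ℕ, x - y ∈ Ideal.span {(p : A) ^ n}) : x = y := by
  refine sub_eq_zero.mp (IsHausdorff.haus' (I := maximalIdeal A) _ fun n => ?_)
  rw [SModEq.zero, smul_eq_mul, Ideal.mul_top]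
  exact ((Ideal.span_singleton_le_iff_mem _).2 (Ideal.pow_mem_pow hp n)) (h n)

variable {O : Type} [CommRing O] [IsLocalRing O] [IsAdicComplete (maximalIdeal O) O]
  [Algebra O A] [IsAdicComplete (maximalIdeal A) A]

/-- A cyclotomic determinant takes values in `O`. -/
theorem exists_det_algebraMap {p : ℕ} [Fact p.Prime] (hp : (p : O) ∈ maximalIdeal O)
    {ρ : GaloisRepAdic A} (h : ρ.DetIsCyclotomic p) (σ : Gal) :
    ∃ c : O, LinearMap.det (ρ.ρ σ) = algebraMap O A c ∧
      ∀ (n a : ℕ), (∀ μ : Q̄, μ ^ p ^ n = 1 → σ μ = μ ^ a) →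
        c - (a : O) ∈ Ideal.span {(p : O) ^ n} := by
  obtain ⟨ι⟩ := GaloisReps.exists_padicHom O hp
  obtain ⟨c, hc⟩ := exists_padicInt_cyclotomic p σ
  have hι : ∀ (n a : ℕ), (∀ μ : Q̄, μ ^ p ^ n = 1 → σ μ = μ ^ a) →
      ι c - (a : O) ∈ Ideal.span {(p : O) ^ n} := fun n a ha => by
    obtain ⟨d, hd⟩ := Ideal.mem_span_singleton'.mp (hc n a ha)
    refine Ideal.mem_span_singleton'.mpr ⟨ι d, ?_⟩
    rw [← map_natCast ι, ← map_natCast ι a, ← map_pow, ← map_mul, hd, map_sub]
  refine ⟨ι c, eq_of_forall_sub_mem h.1 fun n => ?_, hι⟩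
  haveI : NeZero (p ^ n) := ⟨pow_ne_zero n (Fact.out : p.Prime).ne_zero⟩
  obtain ⟨a, ha⟩ := CFT.Tangent.exists_pow_eq_on_roots (p ^ n) σ
  obtain ⟨d, hd⟩ := Ideal.mem_span_singleton'.mp (hι n a ha)
  have h2 := h.2 n σ a ha
  rw [Nat.cast_pow] at h2
  have : algebraMap O A (ι c) - (a : A) ∈ Ideal.span {(p : A) ^ n} :=
    Ideal.mem_span_singleton'.mpr ⟨algebraMap O A d, by
      rw [← map_natCast (algebraMap O A), ← map_natCast (algebraMap O A) a, ← map_pow, ← map_mul,
        hd, map_sub]⟩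
  have := sub_mem h2 this
  rwa [sub_sub_sub_cancel_right] at this

/-- The determinant at an element acting on all `p`-power roots by a fixed exponent. -/
theorem det_eq_natCast {p : ℕ} {ρ : GaloisRepAdic A} (h : ρ.DetIsCyclotomic p) {σ : Gal} {a : ℕ}
    (ha : ∀ (n : ℕ) (μ : Q̄), μ ^ p ^ n = 1 → σ μ = μ ^ a) : LinearMap.det (ρ.ρ σ) = (a : A) :=
  eq_of_forall_sub_mem h.1 fun n => by simpa [Nat.cast_pow] using h.2 n σ a (ha n)

variable [Finite (ResidueField O)] {ρbar : ResidualGaloisRep (ResidueField O)}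

omit [IsAdicComplete (maximalIdeal O) O] in
omit [Finite (ResidueField O)] in
/-- Normalised matrices lifting the residual ones. -/
theorem exists_normal_matrices {bb : Basis (Fin 2) (ResidueField O) ρbar.V} {W : Rigid O}
    (hW : W.rb = matRes ρbar bb) (hA : IsResAlg O A) [IsLocalHom (algebraMap O A)]
    (ρ : GaloisRepAdic A)
    (he : ρ.residual.IsEquiv (ρbar.baseChangeAlong (ResidueField.map (algebraMap O A)))) :
    ∃ (ru : Gal →* M2 A) (hc : IsCont ru), Lifts W hA ru ∧ IsNormal W ru ∧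
      ρ.IsEquiv (toRep ru hc) ∧ (∀ σ, (ru σ).trace = LinearMap.trace A ρ.V (ρ.ρ σ)) ∧
      (∀ σ, (ru σ).det = LinearMap.det (ρ.ρ σ)) ∧ ∀ σ, ρ.ρ σ = 1 → ru σ = 1 := by
  obtain ⟨b, hb⟩ := exists_lifts_basis hW hA ρ he
  obtain ⟨P, hP, hPn⟩ := exists_normal hb
  refine ⟨conjM P (matOf ρ b), (isCont_matOf ρ b).conj P, hP, hPn,
    isEquiv_trans (isEquiv_toRep_matOf ρ b) (isEquiv_conj _ P), fun σ => ?_, fun σ => ?_,
    fun σ hσ => ?_⟩
  · rw [conjM_apply, Matrix.trace_mul_comm, ← mul_assoc, Units.mul_inv, one_mul,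
      LinearMap.trace_eq_matrix_trace A b]
    rfl
  · rw [conjM_apply, Matrix.det_mul, Matrix.det_mul, mul_comm, ← mul_assoc, ← Matrix.det_mul,
      Units.mul_inv, Matrix.det_one, one_mul]
    exact LinearMap.det_toMatrix b (ρ.ρ σ)
  · rw [conjM_apply, show matOf ρ b σ = 1 from ?_, mul_one, Units.inv_mul]
    show LinearMap.toMatrixAlgEquiv b (ρ.ρ σ) = 1
    rw [hσ, map_one]

omit [Finite (ResidueField O)] in
/-- The determinant condition passes to the algebra of entries. -/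
theorem corestrict_det [IsDomain O] [IsDiscreteValuationRing O] [Module.Finite O A] {p : ℕ} [Fact p.Prime]
    (hp : (p : O) ∈ maximalIdeal O) (hA : IsResAlg O A) (S : Subalgebra O A) [IsLocalRing S]
    {ru : Gal →* M2 A} (hc : IsCont ru) (hS : ∀ σ i j, ru σ i j ∈ S)
    (hcS : IsCont (corestrict S ru hS)) (hdet : (toRep ru hc).DetIsCyclotomic p) :
    (toRep (corestrict S ru hS) hcS).DetIsCyclotomic p := by
  have hdetv : ∀ σ, ((LinearMap.det ((toRep (corestrict S ru hS) hcS).ρ σ) : S) : A) =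
      LinearMap.det ((toRep ru hc).ρ σ) := fun σ => by
    show S.val (LinearMap.det (Matrix.toLin' (corestrict S ru hS σ))) =
      LinearMap.det (Matrix.toLin' (ru σ))
    rw [LinearMap.det_toLin', LinearMap.det_toLin']
    exact RingHom.map_det (S.val : S →+* A) _
  refine ⟨?_, fun n σ a ha => ?_⟩
  · have := (isResAlg_subalgebra hA S).isLocalHom
    rw [← map_natCast (algebraMap O S)]
    exact map_nonunit (algebraMap O S) _ hp
  obtain ⟨c, hc', hca⟩ := exists_det_algebraMap hp hdet σ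
  obtain ⟨d, hd⟩ := Ideal.mem_span_singleton'.mp (hca n a ha)
  refine Ideal.mem_span_singleton'.mpr ⟨algebraMap O S d, Subtype.ext ?_⟩
  rw [AddSubgroupClass.coe_sub, hdetv, hc', MulMemClass.coe_mul, Subalgebra.coe_algebraMap,
    SubringClass.coe_natCast, SubringClass.coe_natCast, Nat.cast_pow,
    ← map_natCast (algebraMap O A), ← map_natCast (algebraMap O A) a, ← map_pow, ← map_mul, hd,
    map_sub]

omit [Finite (ResidueField O)] in
/-- Flatness and the determinant condition pass to the algebra of entries. -/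
theorem corestrict_flat_det [IsDomain O] [IsDiscreteValuationRing O] [Module.Finite O A] {p : ℕ} [Fact p.Prime]
    (hp : (p : O) ∈ maximalIdeal O) (hA : IsResAlg O A) (S : Subalgebra O A) [IsLocalRing S]
    {ru : Gal →* M2 A} (hc : IsCont ru) (hS : ∀ σ i j, ru σ i j ∈ S)
    (hcS : IsCont (corestrict S ru hS)) (hflat : (toRep ru hc).IsFlatAt p)
    (hdet : (toRep ru hc).DetIsCyclotomic p) :
    (toRep (corestrict S ru hS) hcS).IsFlatAt p ∧
      (toRep (corestrict S ru hS) hcS).DetIsCyclotomic p := by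
  have hloc := isLocalHom_subalgebra_val S
  have : IsNoetherian O A := isNoetherian_of_isNoetherianRing_of_finite O A
  have := finite_subalgebra S
  have : IsNoetherianRing S := IsNoetherianRing.of_finite O S
  refine ⟨Glue.isFlatAt_of_baseChange (S.val : S →+* A) hloc Subtype.val_injective ?_ _
    (isFlatAt_of_isEquiv (isEquiv_symm (isEquiv_trans
      (isEquiv_baseChangeAlong_toRep _ hloc _ hcS)
      (isEquiv_toRep_congr (mapM_corestrict S ru hS) _ hc))) hflat), corestrict_det hp hA S hc hS hcS hdet⟩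
  · haveI : Module.Finite S A := Module.Finite.of_restrictScalars_finite O S A
    show RingHom.Finite (algebraMap S A)
    exact RingHom.finite_algebraMap.mpr inferInstance

end Fermat.Agent.RT.Assembly
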