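import Fermat.Agent.RT.Assembly.Bound
import Fermat.Agent.RT.Assembly.Normal
import Fermat.Agent.RT.Assembly.Local
import Fermat.Agent.RT.Assembly.Diamond
import Fermat.Agent.RT.Glue.Bridge
import Fermat.Agent.RT.Glue.Flat
import Fermat.Agent.RT.Lift.Levels.Bound
import Fermat.Agent.RT.Lift.Lower.Strict

/-!
# A patching level from a Hecke module at a level

The level is the product of the places of `V`, the auxiliary primes, a set `R` of primes at which
inertia is unipotent, primes at which no point is new, and possibly `p`; the character of the level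
is trivial at the primes other than the places and the auxiliary primes. The condition at `p` is
flatness, or strict ordinarity when `p` divides the level.
-/

set_option autoImplicit false
set_option linter.style.haveILetI false

noncomputable section

open IsLocalRing Module Polynomial
open Fermat.Agent.Deform Fermat.Agent.Arith Fermat.Agent.CFT.Tangent
open Fermat.Agent.NewformLocal (UnipotentAt)
open Fermat.Agent.NewformLocal.Toric (QuarticAt)
open Fermat.Agent.FiniteFlat (GalOrder)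
open Fermat.Agent.GaloisReps (HeckeGaloisModel ModelLevel)

namespace Fermat.Agent.RT.Assembly

local notation "Q̄" => AlgebraicClosure ℚ

/-- A power `1` of the generator at an auxiliary prime. -/
theorem pow_one_val {R : Type*} [Monoid R] {x : R} {m : ℕ} (h : x ^ m = 1) :
    x ^ (1 : ZMod m).val = x := by
  rcases m with _ | _ | m
  · simp [ZMod.val]
  · rw [pow_one] at h
    rw [h, one_pow]
  · haveI : Fact (1 < m + 1 + 1) := ⟨by omega⟩
    rw [ZMod.val_one, pow_one]

variable {O : Type} [CommRing O] [IsDomain O] [IsDiscreteValuationRing O]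
  [IsAdicComplete (maximalIdeal O) O] [Finite (ResidueField O)] [CharZero O]

omit [IsAdicComplete (maximalIdeal O) O] [Finite (ResidueField O)] [CharZero O] in
/-- The matrices of the diamond operators. -/
theorem rep_diaA {L : ℕ} {Δ : Type} [CommGroup Δ] {ψ : (ZMod L)ˣ →* Δ} {S : Finset ℕ}
    {abar : ℕ → ResidueField O} (H : HeckeModule L ψ S abar) {R : Type} [CommRing R] [Algebra O R]
    (χ : Δ →* R) (hA : ∀ a ∈ H.algebra, ∀ δ, a * H.dia δ = H.dia δ * a) (δ : Δ) :
    (⟨H.basis, H.basis_bijective⟩ : DiaBasis H.dia H.d).rep χ hA (Glue.diaA H δ) =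
      χ δ • 1 := by
  rw [DiaBasis.rep_apply]
  exact DiaBasis.mat_dia _ χ δ

attribute [local instance 10000] AddMonoidHomClass.toAddHomClass RingHomClass.toAddMonoidHomClass
  AlgHomClass.toRingHomClass

set_option maxHeartbeats 3200000 in
/-- **The patching level of a Hecke module**, general minimal set and condition at `p`. -/
theorem exists_patchLevel_of_heckeModule_general {p : ℕ} [Fact p.Prime] [CharP (ResidueField O) p]
    (hp : (p : O) ∈ maximalIdeal O) (hp2 : p ≠ 2) {ζ ζi c : O} (hc : 2 * c = 1)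
    (hζi : ζ * ζi = 1) (hζp : ζ ^ p = 1) (hζne : ζ ≠ ζi) {π : O}
    (hπ : maximalIdeal O = Ideal.span {π})
    (D : ∀ (M : ℕ) [NeZero M], HeckeGaloisModel M p)
    (hE : ∀ (v R M : ℕ) [Fact v.Prime] [NeZero R] [NeZero M]
      (g : CuspForm (CongruenceSubgroup.Gamma0 M) 2), InertiaTW.TraceInertia p v R M g)
    (hES : ∀ (N : ℕ) [NeZero N], GaloisReps.CongruenceProperty N p)
    (hloc : ∀ (M v : ℕ) [NeZero M], v.Prime → v ≠ p → v ∣ M → ¬ v ^ 2 ∣ M →
      UnipotentAt (D M) v ∧ QuarticAt (D M) v)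
    (hX : ∀ (M : ℕ) [NeZero M] (N : ℕ), ¬ p ∣ M → Nonempty (GalOrder p (ModelLevel (D M) N)))
    {ρbar : ResidualGaloisRep (ResidueField O)} (habs : ρbar.IsAbsolutelyIrreducible)
    (hdetbar : ∀ (σ : Gal) (m : ℕ), (∀ μ : Q̄, μ ^ p = 1 → σ μ = μ ^ m) →
      LinearMap.det (ρbar.ρ σ) = (m : ResidueField O))
    (hbarI : ∀ q : ℕ, q.Prime → q ≠ p → ∀ A : ValuationSubring Q̄, A.LiesOverPrime q →
      ∀ σ ∈ A.inertiaSubgroupIn ℚ, LinearMap.trace (ResidueField O) ρbar.V (ρbar.ρ σ) = 2)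
    (bb : Basis (Fin 2) (ResidueField O) ρbar.V)
    (hsplit : ∀ g, ∃ α β : ResidueField O,
      (matRes ρbar bb g).trace = α + β ∧ (matRes ρbar bb g).det = α * β)
    {S : Finset ℕ} {abar : ℕ → ResidueField O} (hpS : p ∈ S)
    (hbar : Glue.HasCharpolys S abar ρbar)
    {V : Type} [Fintype V] [Nonempty V] {r n : ℕ} (vT : V → ℕ) [∀ v, Fact (vT v).Prime]
    (qv : Fin r → ℕ) {L : ℕ} [NeZero L] (hL : Squarefree L)
    (hS : ∀ q : ℕ, q.Prime → q ∣ L → q ∈ S) {R : Finset ℕ}
    (hR : ∀ q ∈ R, q.Prime ∧ q ∣ L ∧ q ≠ p)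
    (hprime : ∀ x, (Sum.elim vT qv x).Prime) (hdvd : ∀ x, Sum.elim vT qv x ∣ L)
    (hinj : Function.Injective (Sum.elim vT qv)) (hvp : ∀ x, Sum.elim vT qv x ≠ p)
    (hneR : ∀ x, Sum.elim vT qv x ∉ R)
    (hLpr : ∀ q : ℕ, q.Prime → q ∣ L → q ∈ R ∨ q = p ∨ (∃ x, Sum.elim vT qv x = q) ∨
      ∀ A : ValuationSubring Q̄, A.LiesOverPrime q → ∀ F : Gal, A.IsFrobeniusAt F q →
        LinearMap.trace (ResidueField O) ρbar.V (ρbar.ρ F) ^ 2 ≠ ((q : ResidueField O) + 1) ^ 2)
    (hpord : p ∣ L → (GaloisRepAdic.ofResidualGaloisRep ρbar).IsOrdinaryAt p ∧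
      ¬ IsCongruentLevel S abar (L / p))
    (hT : ∀ v, p ∣ vT v - 1) (hQ : ∀ i, p ^ (n + 1) ∣ qv i - 1)
    (hbarT : ∀ v, ∀ A : ValuationSubring Q̄, A.LiesOverPrime (vT v) →
      (∀ σ ∈ A.inertiaSubgroupIn ℚ, ρbar.ρ σ = 1) ∧
        ∀ φ : Gal, A.IsFrobeniusAt φ (vT v) → ∃ e : ResidueField O, ρbar.ρ φ = e • 1)
    (hcore : TangentCoreAt p (matRes ρbar bb) (insert p R) (Finset.univ.image vT) qv) (v₀ : V)
    (hncl : ¬ IsCongruentLevel S abar (L / vT v₀)) {B : ℕ}
    (hH : ∀ ψ : (ZMod L)ˣ →* LevelGroup V p r n, Function.Surjective ψ →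
      ∃ H : HeckeModule L ψ S abar, 0 < H.d ∧ H.d ≤ B) :
    3 * Fintype.card V ≤ r ∧
    Nonempty (PatchLevel (fun _ : V => c * (ζ - ζi))
      (frobRel (g := r - 3 * Fintype.card V) c v₀ (vT v₀)) π p r B n) := by
  classical
  have hpp : p.Prime := Fact.out
  -- the data at the places
  have hsub : ∀ x, p ∣ Sum.elim vT qv x - 1 := by
    rintro (v | i)
    · exact hT v
    · exact (dvd_pow_self p (Nat.succ_ne_zero n)).trans (hQ i)
  choose Ap hAp using fun i => Arith.exists_liesOverPrime (hprime (Sum.inr i))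
  let pl : ∀ x : V ⊕ Fin r, ValuationSubring Q̄ := Sum.elim (fun v => padicPlace (vT v)) Ap
  have hpl : ∀ x, (pl x).LiesOverPrime (Sum.elim vT qv x) := by
    rintro (v | i)
    · exact CFT.Local.padicPlace_liesOverPrime (vT v)
    · exact hAp i
  choose σx ax πx mx hσx hμx hordx hπx hπord hπres hπresp using fun x =>
    exists_inertia_uniformiser hpp (hpl x) (hprime x) (hsub x)
  choose φT hφT using fun v => Arith.exists_isFrobeniusAt (hpl (Sum.inl v)) (hprime (Sum.inl v))
  -- the character and the module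
  obtain ⟨ψ, hψs, hψgen, hψtriv⟩ := exists_levelPsi (p := p) hp2 n hL vT qv hprime hdvd hinj hT
    (fun i => (pow_dvd_pow p n.le_succ).trans (hQ i)) ax hordx
  obtain ⟨H, hd, hdB⟩ := hH ψ hψs
  have hΔ : IsPGroup p (LevelGroup V p r n) := isPGroup_levelGroup p n
  have : IsLocalRing H.algebra := Glue.isLocalRing_algebra H hp hΔ hd
  have hlochom : IsLocalHom (algebraMap O H.algebra) := Glue.isLocalHom_algebraMap H hp hΔ
  have := Glue.isAdicComplete_algebra H
  haveI : Module.Finite O H.algebra := inferInstance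
  obtain ⟨pt, G, hG, hdetG, hunrG, -⟩ :=
    Glue.exists_rep hp hΔ hp2 hpS hS habs hbar D (H := H)
  have hA : IsResAlg O H.algebra := ⟨hlochom, Glue.residue_algebraMap_surjective H hp hΔ⟩
  obtain ⟨W, hW⟩ := exists_rigid ρbar habs bb
  obtain ⟨ru, hcru, hl, hn, heq, htr, hdet, hone⟩ := exists_normal_matrices hW hA G.rep hG
  have hflat : ¬ p ∣ L → (toRep ru hcru).IsFlatAt p := fun hpL => isFlatAt_of_isEquiv heq
    (G.isFlatAt hp hΔ fun M _ N hM => hX M N fun h => hpL (hpp.dvd_of_dvd_pow (h.trans hM)))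
  have hdetC : (toRep ru hcru).DetIsCyclotomic p := detIsCyclotomic_of_isEquiv heq hdetG
  have hU : ∀ v : ℕ, v.Prime → v ≠ p → ∀ (M : ℕ) [NeZero M], M ∣ L ^ 2 → v ∣ M → ¬ v ^ 2 ∣ M →
      UnipotentAt (D M) v := fun v hv hv' M _ _ h1 h2 => (hloc M v hv hv' h1 h2).1
  -- residual matrices
  have hbarone : ∀ g, ρbar.ρ g = 1 → W.rb g = 1 := fun g hg => by
    rw [hW]
    show LinearMap.toMatrixAlgEquiv bb (ρbar.ρ g) = 1
    rw [hg, map_one]
  have haug : ∀ g (e : ResidueField O), W.rb g = e • 1 →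
      ∀ a b, augment hA (ru g a b) = if a = b then e else 0 := fun g e hg a b => by
    rw [hl g a b, hg]
    simp [Matrix.one_apply]
  have hinert : ∀ v, ∀ g ∈ (padicPlace (vT v)).inertiaSubgroupIn ℚ, W.rb g = 1 := fun v g hg =>
    hbarone g ((hbarT v _ (hpl (Sum.inl v))).1 g hg)
  have hscal : ∀ v, ∃ e : ResidueField O, e ≠ 0 ∧ W.rb (φT v) = e • 1 := fun v => by
    obtain ⟨e, he⟩ := (hbarT v _ (hpl (Sum.inl v))).2 (φT v) (hφT v)
    have heq' : W.rb (φT v) = e • 1 := by
      rw [hW]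
      show LinearMap.toMatrixAlgEquiv bb (ρbar.ρ (φT v)) = e • 1
      rw [he, map_smul, map_one]
    refine ⟨e, fun h0 => ?_, heq'⟩
    have := congrArg Matrix.det (CFT.Tangent.map_mul_inv W.rb (φT v))
    rw [Matrix.det_mul, heq', h0, zero_smul, Matrix.det_zero, zero_mul,
      Matrix.det_one] at this
    exact zero_ne_one this
  -- determinants
  have hdetσ : ∀ x, (ru (σx x)).det = 1 := fun x => by
    rw [hdet, det_eq_natCast (a := 1) hdetG fun m μ hμ => by
      rw [pow_one]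
      exact Arith.inertia_root (hpl x) (hprime x) (hσx x) hμ fun h =>
        hvp x ((Nat.prime_dvd_prime_iff_eq (hprime x) hpp).1 ((hprime x).dvd_of_dvd_pow h)),
      Nat.cast_one]
  have hdetφ : ∀ v, (ru (φT v)).det = (vT v : H.algebra) := fun v => by
    rw [hdet]
    exact det_eq_natCast (a := vT v) hdetG fun m μ hμ =>
      GaloisReps.frobenius_apply_root (hpl (Sum.inl v)) (hprime (Sum.inl v)) (hφT v) hμ fun h =>
        hvp (Sum.inl v) ((Nat.prime_dvd_prime_iff_eq (hprime (Sum.inl v)) hpp).1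
          ((hprime (Sum.inl v)).dvd_of_dvd_pow h))
  have hpA : (p : H.algebra) ∈ maximalIdeal H.algebra := hdetG.1
  have hconj : ∀ v, ru (φT v) * ru (σx (Sum.inl v)) =
      ru (σx (Sum.inl v)) ^ vT v * ru (φT v) := fun v =>
    conj_eq_pow hpp hpA hcru (hpl (Sum.inl v)) (hprime (Sum.inl v)) (hvp (Sum.inl v))
      (fun g hg => by
        ext a b
        rw [Matrix.map_apply, ← map_augment hA, hl g a b, hinert v g hg, Matrix.one_apply,
          Matrix.one_apply, apply_ite (ResidueField.map _), map_one, map_zero])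
      (hσx (Sum.inl v)) (hφT v)
  -- the traces at the generators
  let gen : V ⊕ Fin r → LevelGroup V p r n := levelGen p n
  have hu : ∀ x, ∃ u : (ZMod L)ˣ, ((u : ZMod L).cast : ZMod (L / Sum.elim vT qv x)) = 1 ∧
      ZMod.unitsMap (hdvd x) u = ax x := fun x =>
    exists_unit_crt (hdvd x) ((hprime x).coprime_iff_not_dvd.mpr fun h => (hprime x).not_isUnit
      (hL _ ((Nat.dvd_div_iff_mul_dvd (hdvd x)).1 h))) (ax x)
  have htrgen : ∀ x, (ru (σx x)).trace =
      Glue.diaA H (gen x) + Glue.diaA H (gen x)⁻¹ := fun x => by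
    have : Fact (Sum.elim vT qv x).Prime := ⟨hprime x⟩
    obtain ⟨u, hu1, hu2⟩ := hu x
    have hTW : Glue.TwistedInertia D pt (Sum.elim vT qv x) := by
      refine G.twistedInertia hp hΔ hp2 hpS hL (hdvd x) (hvp x) (fun R M _ _ g => hE _ R M g) ?_
        (hU _ (hprime x) (hvp x)) hG fun A hA' σ hσ => hbarI _ (hprime x) (hvp x) A hA' σ hσ
      exact @hES _ ⟨by rw [← mul_pow, Nat.mul_div_cancel' (hdvd x)]; exact pow_ne_zero 2 (NeZero.ne L)⟩
    have hua : ((u : ZMod L).cast : ZMod (Sum.elim vT qv x)) =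
        (((ax x : (ZMod (Sum.elim vT qv x))ˣ) : ZMod (Sum.elim vT qv x)).val : ℕ) := by
      rw [ZMod.natCast_zmod_val, ← hu2, ZMod.unitsMap_val]
    rw [htr, trace_eq_add_of_charpoly _ (G.charpoly_inertia (hprime x) (hvp x) hTW (hpl x) (hσx x)
      (hμx x) u hu1 hua), hψgen x u hu1 hu2]
  let χ : LevelGroup V p r n →* _ := levelChar (V := V) (r := r) hζp n
  have hcomm : ∀ a ∈ H.algebra, ∀ δ, a * H.dia δ = H.dia δ * a := fun a ha δ =>
    congrArg Subtype.val (mul_comm (⟨a, ha⟩ : H.algebra) (Glue.diaA H δ))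
  let Bd : DiaBasis H.dia H.d := ⟨H.basis, H.basis_bijective⟩
  let rep := Bd.rep χ hcomm
  have hrepdia : ∀ δ, rep (Glue.diaA H δ) = χ δ • 1 := fun δ => rep_diaA H χ hcomm δ
  have hχinv : ∀ δ, χ δ * χ δ⁻¹ = 1 := fun δ => by rw [← map_mul, mul_inv_cancel, map_one]
  have hχT : ∀ v, χ (gen (Sum.inl v)) =
      algebraMap O (MvPowerSeries (Fin r) O ⧸ levelIdeal O p n) ζ := fun v => by
    show χ (Multiplicative.ofAdd _) = _
    rw [levelChar_apply_left, pow_one_val hζp]
  have hχQ : ∀ i, χ (gen (Sum.inr i)) =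
      1 + Ideal.Quotient.mk (levelIdeal O p n) (MvPowerSeries.X i) := fun i => by
    show χ (Multiplicative.ofAdd _) = _
    rw [levelChar_apply_right, pow_one_val (one_add_mk_pow n i)]
  have htrT : ∀ v, rep (ru (σx (Sum.inl v))).trace =
      rep (algebraMap O H.algebra (ζ + ζi)) := fun v => by
    have hi : χ (gen (Sum.inl v))⁻¹ =
        algebraMap O (MvPowerSeries (Fin r) O ⧸ levelIdeal O p n) ζi :=
      left_inv_eq_right_inv (a := χ (gen (Sum.inl v)))
        (by rw [mul_comm]; exact hχinv _) (by rw [hχT, ← map_mul, hζi, map_one])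
    rw [htrgen, map_add rep, hrepdia, hrepdia, hχT, hi, AlgHom.commutes, map_add]
    simp only [Algebra.algebraMap_eq_smul_one, smul_assoc, one_smul]
  have htrQ : ∀ i, Matrix.scalar (Fin H.d)
      ((1 + Ideal.Quotient.mk (levelIdeal O p n) (MvPowerSeries.X i)) ^ 2 + 1) =
      Matrix.scalar (Fin H.d) (1 + Ideal.Quotient.mk (levelIdeal O p n) (MvPowerSeries.X i)) *
        rep (ru (σx (Sum.inr i))).trace := fun i => by
    rw [htrgen, map_add rep, hrepdia, hrepdia, hχQ,
      Matrix.smul_one_eq_diagonal, Matrix.smul_one_eq_diagonal, ← Matrix.scalar_apply,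
      ← Matrix.scalar_apply, ← map_add, ← map_mul, mul_add, ← sq, ← hχQ, hχinv]
  -- the special trace
  have hf : ∀ i j, rep ((ru (φT v₀)).trace ^ 2 - ((vT v₀ : H.algebra) + 1) ^ 2) i j ∈
      Ideal.span {algebraMap O (MvPowerSeries (Fin r) O ⧸ levelIdeal O p n) π} := by
    have hv0 : (vT v₀).Prime := hprime (Sum.inl v₀)
    haveI : Fact (Sum.elim vT qv (Sum.inl v₀)).Prime := ⟨hv0⟩
    let K : Subgroup (LevelGroup V p r n) :=
      ((ZMod.unitsMap (Nat.div_dvd_of_dvd (hdvd (Sum.inl v₀)))).ker).map ψ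
    let x : H.algebra := (ru (φT v₀)).trace ^ 2 - ((vT v₀ : H.algebra) + 1) ^ 2
    have hx : x = (ru (φT v₀)).trace ^ 2 - ((vT v₀ : H.algebra) + 1) ^ 2 := rfl
    have hzero : (∑ k : K, Glue.diaA H (k : LevelGroup V p r n)) * x = 0 := by
      refine Glue.eq_zero_of_forall_complex hp fun θ => ?_
      rw [map_mul]
      by_cases hall : ∀ k : K, θ (Glue.diaA H (k : LevelGroup V p r n)) = 1
      · refine mul_eq_zero_of_right _ ?_
        rw [hx, map_sub, map_pow, map_pow, map_add, map_natCast, map_one, htr, sub_eq_zero]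
        refine G.trace_sq_frobenius hv0 (hdvd (Sum.inl v₀)) (hvp (Sum.inl v₀)) hncl
          (fun M _ hM h1 h2 => hloc M _ hv0 (hvp (Sum.inl v₀)) h1 h2) (hpl (Sum.inl v₀)) (hφT v₀)
          θ fun u hu => hall ⟨ψ u, u, ?_, rfl⟩
        exact Units.ext (by rw [ZMod.unitsMap_val]; exact hu)
      · push Not at hall
        obtain ⟨k₀, hk₀⟩ := hall
        refine mul_eq_zero_of_left ?_ _
        rw [map_sum]
        have hperm : θ (Glue.diaA H (k₀ : LevelGroup V p r n)) *
            ∑ k : K, θ (Glue.diaA H (k : LevelGroup V p r n)) =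
            1 * ∑ k : K, θ (Glue.diaA H (k : LevelGroup V p r n)) := by
          rw [one_mul, Finset.mul_sum]
          refine Fintype.sum_equiv (Equiv.mulLeft k₀) _ _ fun k => ?_
          rw [Equiv.coe_mulLeft, Subgroup.coe_mul, map_mul, map_mul]
        by_contra hne
        exact hk₀ (mul_right_cancel₀ hne hperm)
    intro i j
    refine DiaBasis.mat_mem_of_mul_norm Bd χ K ?_ _ (fun δ k hk => ?_) i j
    · have := congrArg Subtype.val hzero
      rw [MulMemClass.coe_mul, ZeroMemClass.coe_zero, AddSubmonoidClass.coe_finsetSum] at this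
      exact this
    · obtain ⟨u, hu', rfl⟩ := hk
      have hu1 : ((u : ZMod L).cast : ZMod (L / vT v₀)) = 1 := by
        have := congrArg Units.val (MonoidHom.mem_ker.1 hu')
        rwa [ZMod.unitsMap_val, Units.val_one] at this
      have hmem : ψ u ∈ Subgroup.zpowers (gen (Sum.inl v₀)) :=
        psi_mem_zpowers ψ (hdvd (Sum.inl v₀))
          ((hprime (Sum.inl v₀)).coprime_iff_not_dvd.mpr fun h => (hprime (Sum.inl v₀)).not_isUnit
            (hL _ ((Nat.dvd_div_iff_mul_dvd (hdvd (Sum.inl v₀))).1 h)))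
          (hordx (Sum.inl v₀)) (h := halfInvExp (LevelGroup V p r n))
          (by rw [card_levelGroup]; exact (coprime_halfInvExp hp2 n).pow_right _)
          (hψgen (Sum.inl v₀)) hu1
      obtain ⟨a, ha⟩ := (Submonoid.mem_powers_iff _ _).1
        ((isOfFinOrder_of_finite (gen (Sum.inl v₀))).mem_powers_iff_mem_zpowers.2 hmem)
      have hζm : ζ ^ a - 1 ∈ Ideal.span {π} := by
        have h1 : residue O ζ = 1 := by
          have h0 : (residue O ζ - 1) ^ p = 0 := by
            rw [sub_pow_char, ← map_pow, hζp, map_one, one_pow, sub_self]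
          exact sub_eq_zero.1 ((pow_eq_zero_iff hpp.ne_zero).1 h0)
        rw [← hπ, ← residue_eq_zero_iff, map_sub, map_pow, h1, map_one, one_pow, sub_self]
      obtain ⟨b, hb⟩ := Ideal.mem_span_singleton'.1 hζm
      rw [map_mul, ← ha, map_pow, hχT, ← map_pow, ← mul_sub_one, ← map_one
        (algebraMap O (MvPowerSeries (Fin r) O ⧸ levelIdeal O p n)), ← map_sub, ← hb, map_mul]
      exact Ideal.mul_mem_left _ _ (Ideal.mul_mem_left _ _ (Ideal.mem_span_singleton_self _))
  -- the bound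
  let Sb := Algebra.adjoin O (entries ru)
  have hSbloc : IsLocalRing Sb := isLocalRing_subalgebra Sb
  have hSmem : ∀ σ i j, ru σ i j ∈ Sb := fun σ i j => Algebra.subset_adjoin ⟨(σ, i, j), rfl⟩
  let rS := corestrict Sb ru hSmem
  have hR' := isResAlg_subalgebra hA Sb
  have := finite_subalgebra Sb
  have := hR'.isLocalHom
  have := isAdicComplete_subalgebra Sb hR'.isLocalHom
  have := IsNoetherianRing.of_finite O Sb
  have hcS : IsCont rS := isCont_corestrict hA Sb hcru hSmem
  have hdetS : (toRep rS hcS).DetIsCyclotomic p := corestrict_det hp hA Sb hcru hSmem hcS hdetC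
  have hgen : Algebra.adjoin O (entries rS) = ⊤ := by
    refine Subalgebra.map_injective (f := Sb.val) Subtype.val_injective ?_
    rw [AlgHom.map_adjoin, Algebra.map_top, Subalgebra.range_val]
    refine congrArg (Algebra.adjoin O) ?_
    rw [entries, ← Set.range_comp]
    rfl
  have hvalS : ∀ g, ((rS g).trace : H.algebra) = (ru g).trace ∧
      (((rS g).det : Sb) : H.algebra) = (ru g).det := fun g =>
    ⟨AddMonoidHom.map_trace (Sb.val : Sb →+* H.algebra).toAddMonoidHom (rS g),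
      RingHom.map_det (Sb.val : Sb →+* H.algebra) (rS g)⟩
  have hminR : ∀ q ∈ R, ∀ A : ValuationSubring Q̄, A.LiesOverPrime q →
      ∀ σ ∈ A.inertiaSubgroupIn ℚ, (ru σ).trace = 2 := fun q hq A hA' σ hσ => by
    obtain ⟨hqpr, hqL, hqp⟩ := hR q hq
    have hu := G.isUnipotentOnInertiaAt hqpr hqL hqp
      (fun u hu => hψtriv q (fun x h => hneR x (h ▸ hq)) hqpr hqL u hu) (hU q hqpr hqp)
      A hA' σ hσ
    rw [htr, trace_eq_add_of_charpoly _ (hu.trans (by rw [sq, map_one])), one_add_one_eq_two]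
  -- the primes at which no point is new
  have haux : ∀ q : ℕ, q.Prime → q ∣ L → q ≠ p → (∀ x, Sum.elim vT qv x ≠ q) →
      (∀ A : ValuationSubring Q̄, A.LiesOverPrime q → ∀ F : Gal, A.IsFrobeniusAt F q →
        LinearMap.trace (ResidueField O) ρbar.V (ρbar.ρ F) ^ 2 ≠ ((q : ResidueField O) + 1) ^ 2) →
      ∀ A : ValuationSubring Q̄, A.LiesOverPrime q → ∀ σ ∈ A.inertiaSubgroupIn ℚ, ru σ = 1 :=
    fun q hqpr hqL hqp hqx hne A hA' σ hσ => by
    obtain ⟨F, hF⟩ := Arith.exists_isFrobeniusAt hA' hqpr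
    have hun : IsUnit ((ru F).trace ^ 2 - ((q : H.algebra) + 1) ^ 2) := by
      by_contra hnu
      have h0 := (augment_eq_zero_iff hA _).2 hnu
      rw [map_sub, map_pow, map_pow, map_add, map_natCast, map_one, sub_eq_zero] at h0
      refine hne A hA' F hF ?_
      rw [← h0, LinearMap.trace_eq_matrix_trace (ResidueField O) bb, Matrix.trace_fin_two,
        Matrix.trace_fin_two, map_add, hl F 0 0, hl F 1 1, hW]
      rfl
    refine hone σ (G.rep_eq_one fun θ =>
      (pt θ).rep_eq_one ((D (pt θ).M).gal_unramified q hqpr (fun hd => ?_) A hA' σ hσ))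
    rcases hqpr.dvd_mul.1 hd with hd | hd
    · have hsq : ¬ q ^ 2 ∣ (pt θ).M :=
        (pt θ).sq_not_dvd hqpr hqL fun u hu => by
          rw [hψtriv q hqx hqpr hqL u hu, map_one, map_one]
      have h1 := (pt θ).trace_sq_frobenius D hqpr hqp hd (hloc _ q hqpr hqp hd hsq).2 hA' hF
      refine (hun.map θ).ne_zero ?_
      rw [map_sub, map_pow, map_pow, map_add, map_natCast, map_one, htr, G.trace_rep, G.trace_eq,
        h1, sub_self]
    · exact hqp ((Nat.prime_dvd_prime_iff_eq hqpr hpp).1 hd)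
  have hrbfin : GaloisFactorsThroughFiniteLevel W.rb := by
    obtain ⟨K, hK, hK'⟩ := ρbar.factorsThroughFiniteLevel
    exact ⟨K, hK, fun g hg => hbarone g (hK' g hg)⟩
  have hdetrb : ∀ (σ : Gal) (m : ℕ), (∀ μ : Q̄, μ ^ p = 1 → σ μ = μ ^ m) →
      (W.rb σ).det = (m : ResidueField O) := fun σ m hm => by
    rw [hW]
    show (LinearMap.toMatrixAlgEquiv bb (ρbar.ρ σ)).det = _
    rw [LinearMap.toMatrixAlgEquiv, ← hdetbar σ m hm]
    exact LinearMap.det_toMatrix bb _
  have hlS : Lifts W hR' rS := lifts_corestrict Sb hl hSmem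
  -- the condition at `p`
  have hlocal : ∀ K : Submodule (ResidueField O) (tangentDer hR'),
      Lift.BoundAtP p W.rb (LinearMap.range ((tangentCls W hR' rS).comp K.subtype)) := by
    intro K
    by_cases hpL : p ∣ L
    · have hordbar := (hpord hpL).1
      have hnclp := (hpord hpL).2
      have hp3 : 3 ≤ p := by
        have := hpp.two_le
        omega
      have hloc' := hR'.isLocalHom
      have hres : (GaloisRepAdic.ofResidualGaloisRep (toRep rS hcS).residual).IsOrdinaryAt p := by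
        refine Lift.Lower.isOrdinaryAt_residual_of_matrices
          (ResidueField.map (algebraMap O Sb)) bb hcS (fun σ => ?_) hordbar
        ext a b
        exact (map_augment hR' (rS σ a b)).symm.trans (congrArg (ResidueField.map (algebraMap O Sb))
          ((hlS σ a b).trans (by rw [hW]; rfl)))
      exact Lift.boundAtP_strict p hp2 hlS hcS hdetS
        (Lift.Lower.isStrictOrdinaryAt_toRep G hp3 hpS hpL
          (fun u hu => hψtriv p hvp hpp hpL u hu)
          (fun θ => by_contra fun h => hnclp ((pt θ).congruent p hpp hpL h))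
          Sb.val Subtype.val_injective (isLocalHom_subalgebra_val Sb) hcS
          (fun σ => (hvalS σ).1.trans (htr σ)) (fun σ => (hvalS σ).2.trans (hdet σ)) hdetS hres)
        hrbfin hdetrb K
    · have hflatS := (corestrict_flat_det hp hA Sb hcru hSmem hcS (hflat hpL) hdetC).1
      exact Lift.boundAtP_flat p hp2 hlS hcS hdetS hflatS hrbfin hdetrb
        (fun g => by rw [hW]; exact hsplit g) K
  have hbound := finrank_killedDer_le_of_local p hp2 (W := W) (h := hR') (ru := rS) hlS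
    (isNormal_corestrict Sb hn hSmem) hgen hcS hdetS hrbfin hlocal
    (Smin := insert p R) (T := Finset.univ.image vT) (by rw [hW]; exact hcore)
    (fun q hq hqS hqT hqQ A hA' σ hσ => by
      simp only [Finset.mem_insert, not_or] at hqS
      have hqx : ∀ x, Sum.elim vT qv x ≠ q
        | .inl v => fun hx => hqT (Finset.mem_image.2 ⟨v, Finset.mem_univ _, hx⟩)
        | .inr i => hqQ i
      have h1 : ru σ = 1 := by
        by_cases hqL : q ∣ L
        · rcases hLpr q hq hqL with h | h | ⟨x, hx⟩ | h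
          · exact absurd h hqS.2
          · exact absurd h hqS.1
          · exact absurd hx (hqx x)
          · exact haux q hq hqL hqS.1 hqx h A hA' σ hσ
        · exact hone σ (hunrG q hq (fun h => (hq.dvd_mul.1 h).elim hqL fun h =>
            hqS.1 ((Nat.prime_dvd_prime_iff_eq hq hpp).1 h)) A hA' σ hσ)
      refine Matrix.ext fun a b => Subtype.ext ?_
      show ru σ a b = ((1 : M2 Sb) a b : H.algebra)
      rw [h1, Matrix.one_apply, Matrix.one_apply]
      split_ifs <;> rfl)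
    (fun q hq hqp A hA' σ hσ => by
      have hqR : q ∈ R := (Finset.mem_insert.1 hq).resolve_left hqp
      exact Subtype.ext ((hvalS σ).1.trans ((hminR q hqR A hA' σ hσ).trans rfl)))
    vT (fun a b h => Sum.inl_injective (hinj h)) rfl (fun v => hvp (Sum.inl v))
    (fun v => σx (Sum.inl v)) φT (fun v => hσx (Sum.inl v)) hφT hinert hscal
    (fun v => Subtype.ext ((hvalS _).2.trans (hdetσ _)))
    (fun v => Subtype.ext ((hvalS _).2.trans ((hdetφ v).trans
      (by rw [SubringClass.coe_natCast]))))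
    (fun v => ⟨πx (Sum.inl v), hπx (Sum.inl v), ⟨mx (Sum.inl v), hπord (Sum.inl v)⟩,
      hπres (Sum.inl v), hπresp (Sum.inl v)⟩)
    (c2 := algebraMap O Sb c) (by rw [← map_ofNat (algebraMap O Sb) 2, ← map_mul, hc, map_one])
  refine ⟨le_trans (Nat.le_add_left _ _) hbound, ?_⟩
  exact exists_patchLevel hA hd hdB rep c hc ru (fun v => σx (Sum.inl v)) φT
    (fun i => σx (Sum.inr i)) ζ ζi hζi hζp hζne vT
    (fun v => by
      obtain ⟨t, ht⟩ := hT v
      have := (Fact.out : (vT v).Prime).one_lt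
      rw [show vT v = 1 + p * t by omega, Nat.add_mul_mod_self_left, Nat.mod_eq_of_lt hpp.one_lt])
    (fun v a b =>
      haug (σx (Sum.inl v)) 1 (by rw [one_smul]; exact hinert v _ (hσx (Sum.inl v))) a b)
    (fun v => by obtain ⟨e, -, he⟩ := hscal v; exact ⟨e, haug (φT v) e he⟩)
    (fun v => hdetσ (Sum.inl v)) hdetφ hconj htrT htrQ v₀ hf
    (hloc := hSbloc) (Nat.le_sub_of_add_le hbound)


/-- **The patching level of a Hecke module.** -/
theorem exists_patchLevel_of_heckeModule {p : ℕ} [Fact p.Prime] [CharP (ResidueField O) p]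
    (hp : (p : O) ∈ maximalIdeal O) (hp2 : p ≠ 2) {ζ ζi c : O} (hc : 2 * c = 1)
    (hζi : ζ * ζi = 1) (hζp : ζ ^ p = 1) (hζne : ζ ≠ ζi) {π : O}
    (hπ : maximalIdeal O = Ideal.span {π})
    (D : ∀ (M : ℕ) [NeZero M], HeckeGaloisModel M p)
    (hE : ∀ (v R M : ℕ) [Fact v.Prime] [NeZero R] [NeZero M]
      (g : CuspForm (CongruenceSubgroup.Gamma0 M) 2), InertiaTW.TraceInertia p v R M g)
    (hES : ∀ (N : ℕ) [NeZero N], GaloisReps.CongruenceProperty N p)
    (hloc : ∀ (M v : ℕ) [NeZero M], v.Prime → v ≠ p → v ∣ M → ¬ v ^ 2 ∣ M →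
      UnipotentAt (D M) v ∧ QuarticAt (D M) v)
    (hX : ∀ (M : ℕ) [NeZero M] (N : ℕ), ¬ p ∣ M → Nonempty (GalOrder p (ModelLevel (D M) N)))
    {ρbar : ResidualGaloisRep (ResidueField O)} (habs : ρbar.IsAbsolutelyIrreducible)
    (hdetbar : ∀ (σ : Gal) (m : ℕ), (∀ μ : Q̄, μ ^ p = 1 → σ μ = μ ^ m) →
      LinearMap.det (ρbar.ρ σ) = (m : ResidueField O))
    (hbarI : ∀ q : ℕ, q.Prime → q ≠ p → ∀ A : ValuationSubring Q̄, A.LiesOverPrime q →
      ∀ σ ∈ A.inertiaSubgroupIn ℚ, LinearMap.trace (ResidueField O) ρbar.V (ρbar.ρ σ) = 2)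
    (bb : Basis (Fin 2) (ResidueField O) ρbar.V)
    (hsplit : ∀ g, ∃ α β : ResidueField O,
      (matRes ρbar bb g).trace = α + β ∧ (matRes ρbar bb g).det = α * β)
    {S : Finset ℕ} {abar : ℕ → ResidueField O} (hpS : p ∈ S)
    (hbar : Glue.HasCharpolys S abar ρbar)
    {V : Type} [Fintype V] [Nonempty V] {r n : ℕ} (vT : V → ℕ) [∀ v, Fact (vT v).Prime]
    (qv : Fin r → ℕ) {L : ℕ} [NeZero L] (hL : Squarefree L)
    (hS : ∀ q : ℕ, q.Prime → q ∣ L → q ∈ S) (hpL : ¬ p ∣ L) (h2L : 2 ∣ L)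
    (hprime : ∀ x, (Sum.elim vT qv x).Prime) (hdvd : ∀ x, Sum.elim vT qv x ∣ L)
    (hinj : Function.Injective (Sum.elim vT qv)) (hne2 : ∀ x, Sum.elim vT qv x ≠ 2)
    (hLpr : ∀ q : ℕ, q.Prime → q ∣ L → q = 2 ∨ ∃ x, Sum.elim vT qv x = q)
    (hT : ∀ v, p ∣ vT v - 1) (hQ : ∀ i, p ^ (n + 1) ∣ qv i - 1)
    (hbarT : ∀ v, ∀ A : ValuationSubring Q̄, A.LiesOverPrime (vT v) →
      (∀ σ ∈ A.inertiaSubgroupIn ℚ, ρbar.ρ σ = 1) ∧
        ∀ φ : Gal, A.IsFrobeniusAt φ (vT v) → ∃ e : ResidueField O, ρbar.ρ φ = e • 1)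
    (hcore : TangentCoreAt p (matRes ρbar bb) {2, p} (Finset.univ.image vT) qv) (v₀ : V)
    (hncl : ¬ IsCongruentLevel S abar (L / vT v₀)) {B : ℕ}
    (hH : ∀ ψ : (ZMod L)ˣ →* LevelGroup V p r n, Function.Surjective ψ →
      ∃ H : HeckeModule L ψ S abar, 0 < H.d ∧ H.d ≤ B) :
    3 * Fintype.card V ≤ r ∧
    Nonempty (PatchLevel (fun _ : V => c * (ζ - ζi))
      (frobRel (g := r - 3 * Fintype.card V) c v₀ (vT v₀)) π p r B n) := by
  have hvp : ∀ x, Sum.elim vT qv x ≠ p := fun x h => hpL (h ▸ hdvd x)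
  exact exists_patchLevel_of_heckeModule_general hp hp2 hc hζi hζp hζne hπ D hE hES hloc hX habs
    hdetbar hbarI bb hsplit hpS hbar vT qv hL hS (R := {2})
    (fun q hq => by
      obtain rfl := Finset.mem_singleton.1 hq
      exact ⟨Nat.prime_two, h2L, fun h => hp2 h.symm⟩)
    hprime hdvd hinj hvp (fun x h => hne2 x (Finset.mem_singleton.1 h))
    (fun q hq hqL => (hLpr q hq hqL).elim (fun h => Or.inl (Finset.mem_singleton.2 h))
      fun h => Or.inr (Or.inr (Or.inl h)))
    (fun h => absurd h hpL) hT hQ hbarT (by rw [Finset.pair_comm]; exact hcore) v₀ hncl hH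

end Fermat.Agent.RT.Assembly
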