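import Fermat.Agent.RT.Assembly.Core
import Fermat.Agent.RT.Assembly.Special
import Fermat.Agent.RT.Frey.Inputs
import Fermat.Agent.RT.InertiaTW.Main
import Fermat.Agent.CFT.TWPrimes.Residual
import Fermat.Agent.EC.Rep.TWHypothesis
import Fermat.Agent.S05
import Fermat.Agent.S07
import Fermat.Agent.S08

/-!
# Level lowering away from `p` for the Frey curve

From a level prime to `p`, the odd primes of a smallest odd part of a modular level have scalar
decomposition groups by Mazur's principle, and the patching argument excludes such primes.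
-/

set_option autoImplicit false

noncomputable section

open IsLocalRing Module Polynomial
open WeierstrassCurve WeierstrassCurve.Affine WeierstrassCurve.Affine.Point
open CongruenceSubgroup ModularFormClass
open scoped WeierstrassCurve.Affine TensorProduct
open Fermat.Agent.Deform (matRes)

namespace Fermat.Agent.RT.Assembly

local notation "Q̄" => AlgebraicClosure ℚ
local notation "GQ" => AlgebraicClosure ℚ ≃ₐ[ℚ] AlgebraicClosure ℚ

/-- Mazur's principle for the Frey curve at a nonscalar Frobenius element. -/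
def MazurPrincipleInput : Prop := ∀ (P : FreyPackage) {N q : ℕ} (_ : P.IsConductorLevel N),
  q.Prime → q ≠ 2 → q ≠ P.p → q ∣ N →
  GaloisRepIsIrreducible (K := AlgebraicClosure ℚ) ℚ P.freyCurve P.p →
  P.ModularRepOfLevel N → P.GaloisRepUnramifiedAt q →
  (∃ (A : ValuationSubring Q̄) (σ : GQ), A.LiesOverPrime q ∧ A.IsFrobeniusAt σ q ∧
    ∀ c : ℤ, ∃ x : Submodule.torsionBy ℤ (P.freyCurve⁄Q̄).Point P.p, σ • x ≠ c • x) →
  P.ModularRepOfLevel (N / q)

/-- The inertia statement used at the places. -/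
def TraceInertiaInput : Prop :=
  ∀ (p v R M : ℕ) [Fact p.Prime] [Fact v.Prime] [NeZero R] [NeZero M]
    (g : CuspForm (Gamma0 M) 2), InertiaTW.TraceInertia p v R M g

variable {P : FreyPackage} [Fact P.p.Prime] {k : Type} [Field k] [Algebra (ZMod P.p) k]

omit [Fact P.p.Prime] in
theorem two_dvd_abc : (2 : ℤ) ∣ P.a * P.b * P.c := by
  have hb : (2 : ℤ) ∣ P.b := (ZMod.intCast_zmod_eq_zero_iff_dvd P.b 2).1 P.hb2
  exact dvd_mul_of_dvd_left (dvd_mul_of_dvd_right hb _) _

/-- An integral scalar on the torsion is a scalar of the residual representation. -/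
theorem freyRho_eq_smul {σ : GQ} {c : ℤ}
    (h : ∀ x : Submodule.torsionBy ℤ (P.freyCurve⁄Q̄).Point P.p, σ • x = c • x) :
    (freyRho P k).ρ σ = (c : k) • 1 := by
  revert h
  rw [EC.Reduction.Frey.freyCurve_eq_map]
  intro h
  have hbar : (EC.Rep.residualRep P.freyCurveInt P.p (EC.Reduction.Frey.Δ_ne_zero P)).ρ σ =
      (c : ZMod P.p) • 1 := LinearMap.ext fun x => (h x).trans (Int.cast_smul_eq_zsmul _ _ _).symm
  show LinearMap.baseChange k _ = _
  rw [hbar, LinearMap.baseChange_smul, LinearMap.baseChange_one,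
    ← algebraMap_smul k (c : ZMod P.p), map_intCast]
  rfl

/-- A modular level can be raised to a squarefree multiple. -/
theorem modularRepOfLevel_raise {d L : ℕ} (hL : Squarefree L) (hd : d ∣ L)
    (h : P.ModularRepOfLevel d) : P.ModularRepOfLevel L := by
  classical
  let S : Finset ℕ := insert P.p (L.primeFactors ∪ P.freyCurveInt.Δ.natAbs.primeFactors)
  obtain ⟨g, hg, φ, hφ⟩ := isCongruentLevel_of_modularRepOfLevel (k := ZMod P.p) nonempty_model
    (S := S) (fun ℓ hℓ h => by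
      simp only [S, Finset.mem_insert, Finset.mem_union, Nat.mem_primeFactors]
      rcases h with h | h | h
      · exact Or.inl h
      · exact Or.inr (Or.inl ⟨hℓ, h.trans hd, hL.ne_zero⟩)
      · exact Or.inr (Or.inr ⟨hℓ, Int.natCast_dvd.mp h,
          Int.natAbs_ne_zero.mpr (EC.Reduction.Frey.Δ_ne_zero P)⟩)) h
  obtain ⟨f, hf, hfg⟩ := ConductorLevel.exists_raise hL hd hg
  refine modularRepOfLevel_of_congruent (k := ZMod P.p) nonempty_model (S := S)
    ⟨hf, φ, fun ℓ hℓ hℓS a ha => hφ ℓ hℓ hℓS a (ha.trans (hfg ℓ hℓ fun hd' => hℓS ?_))⟩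
  simp only [S, Finset.mem_insert, Finset.mem_union, Nat.mem_primeFactors]
  exact Or.inr (Or.inl ⟨hℓ, hd', hL.ne_zero⟩)

omit [Fact P.p.Prime] in
theorem not_modularRepOfLevel_two : ¬ P.ModularRepOfLevel 2 := by
  rintro ⟨f, -, -, hf, -⟩
  exact hf.ne_zero (S07.result f)

set_option maxHeartbeats 800000 in
/-- **No odd prime survives in a smallest modular level.** -/
theorem false_of_minimal_level (hE : TraceInertiaInput) (hloc : LocalModelInput)
    (hcore : TangentCoreInput)
    (hirr : GaloisRepIsIrreducible (K := AlgebraicClosure ℚ) ℚ P.freyCurve P.p)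
    {L : ℕ} (hL : Squarefree L) (h2L : 2 ∣ L) (hpL : ¬ P.p ∣ L)
    (hodd : ∃ v, v.Prime ∧ v ∣ L ∧ v ≠ 2) (hmod : P.ModularRepOfLevel L)
    (hmin : ∀ M : ℕ, M ∣ L → P.ModularRepOfLevel M → ∀ v : ℕ, v.Prime → v ∣ L → v ≠ 2 → v ∣ M)
    (hscal : ∀ v : ℕ, v.Prime → v ∣ L → v ≠ 2 → ∀ A : ValuationSubring Q̄, A.LiesOverPrime v →
      ∀ F : GQ, A.IsFrobeniusAt F v →
        ∃ c : ℤ, ∀ x : Submodule.torsionBy ℤ (P.freyCurve⁄Q̄).Point P.p, F • x = c • x) :
    False := by
  classical
  have hp5 : 5 ≤ P.p := P.hp5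
  obtain ⟨O, i1, i2, i3, i4, i5, i6, i7, hpO, ⟨ζ, hζ⟩, hquad, φ, hφinj, hφ⟩ := exists_coeff P.p
  let : Algebra (ZMod P.p) (ResidueField O) := ZMod.algebra _ P.p
  set ρ := freyRho P (ResidueField O) with hρ
  have hΔ := EC.Reduction.Frey.Δ_ne_zero P
  have habs := isAbsolutelyIrreducible_freyRho (k := ResidueField O) hirr
  have hirr' : P.freyCurveInt.ModRepIsIrreducible P.p := by
    rw [WeierstrassCurve.ModRepIsIrreducible, ← EC.Reduction.Frey.freyCurve_eq_map]
    exact hirr
  have hss : P.freyCurveInt.IsSemistableModel := fun q hq hd hc => frey_semistable hq ⟨hc, hd⟩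
  have hsplit : ∀ σ : GQ, ∃ α β : ResidueField O, LinearMap.charpoly (ρ.ρ σ) =
      (X - C α) * (X - C β) := by
    intro σ
    set f := LinearMap.charpoly ((EC.Rep.residualRep P.freyCurveInt P.p hΔ).ρ σ)
    have hf : f.natDegree = 2 := by
      rw [LinearMap.charpoly_natDegree]
      exact (EC.Rep.residualRep P.freyCurveInt P.p hΔ).finrank_eq
    obtain ⟨x, hx⟩ := hquad f hf
    have hg : LinearMap.charpoly (ρ.ρ σ) = f.map (ZMod.castHom dvd_rfl (ResidueField O)) :=
      charpoly_freyRho σ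
    rw [← hg, EC.FrobTrace.charpoly_of_finrank_eq_two ρ.finrank_eq] at hx
    refine ⟨x, LinearMap.trace _ _ (ρ.ρ σ) - x, ?_⟩
    rw [EC.FrobTrace.charpoly_of_finrank_eq_two ρ.finrank_eq]
    simp only [IsRoot.def, eval_add, eval_sub, eval_pow, eval_mul, eval_X, eval_C] at hx
    rw [show LinearMap.det (ρ.ρ σ) = LinearMap.trace _ _ (ρ.ρ σ) * x - x ^ 2 by
      linear_combination hx]
    simp only [map_sub, map_mul, map_pow]
    ring
  obtain ⟨bb⟩ : Nonempty (Basis (Fin 2) (ResidueField O) ρ.V) :=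
    ⟨(Module.finBasisOfFinrankEq (ResidueField O) ρ.V ρ.finrank_eq)⟩
  have h2k : (2 : ResidueField O) ≠ 0 := fun h => by
    have h2 : ((2 : ℕ) : ResidueField O) = 0 := by rw [Nat.cast_two, h]
    rw [CharP.cast_eq_zero_iff (ResidueField O) P.p] at h2
    have := Nat.le_of_dvd two_pos h2
    omega
  have hTW : CFT.TWPrimes.TWHyp (matRes ρ bb) := by
    refine CFT.TWPrimes.twHyp_matRes ρ bb h2k habs hsplit fun G hG V hV => ?_
    let e : (ρ.baseChange (ResidueField O)).V ≃ₗ[ResidueField O] ρ.V :=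
      TensorProduct.lid (ResidueField O) ρ.V
    have he : ∀ (σ : GQ) w, e ((ρ.baseChange (ResidueField O)).ρ σ w) = ρ.ρ σ (e w) := fun σ w =>
      LinearMap.congr_fun (show e.toLinearMap ∘ₗ (ρ.ρ σ).baseChange (ResidueField O) =
        ρ.ρ σ ∘ₗ e.toLinearMap by ext y; simp [e]) w
    rcases EC.Rep.residualRep_indexTwo_irreducible (hΔ := hΔ) hss (by omega) hirr'
      (ResidueField O) G hG (V.map e.toLinearMap) (fun σ hσ x hx => by
        obtain ⟨w, hw, rfl⟩ := hx
        exact ⟨_, hV σ hσ w hw, he σ w⟩) with h | h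
    · exact Or.inl (Submodule.map_injective_of_injective e.injective
        (h.trans (Submodule.map_bot _).symm))
    · exact Or.inr (Submodule.map_injective_of_injective e.injective
        (h.trans (by rw [Submodule.map_top, LinearEquiv.range]; rfl)))
  let S₀ : Finset ℕ := insert P.p (L.primeFactors ∪ P.freyCurveInt.Δ.natAbs.primeFactors)
  have hS₀ : ∀ ℓ : ℕ, ℓ.Prime → (ℓ = P.p ∨ ℓ ∣ L ∨ (ℓ : ℤ) ∣ P.freyCurveInt.Δ) → ℓ ∈ S₀ := by
    intro ℓ hℓ h
    simp only [S₀, Finset.mem_insert, Finset.mem_union, Nat.mem_primeFactors]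
    rcases h with h | h | h
    · exact Or.inl h
    · exact Or.inr (Or.inl ⟨hℓ, h, hL.ne_zero⟩)
    · exact Or.inr (Or.inr ⟨hℓ, Int.natCast_dvd.mp h, Int.natAbs_ne_zero.mpr hΔ⟩)
  refine false_of_minimal_congruent hp5 hpO hζ φ hφinj hφ
    (fun v R M _ _ _ g => hE P.p v R M g) hloc hcore habs (fun σ m hm => det_freyRho hm) bb hTW
    (fun q hq hqp A hA σ hσ => trace_freyRho_inertia hq hqp hA hσ)
    (fun A hA => exists_inertia_two_ne_one hA)
    (fun q hq hq2 hqp => isUnramifiedAt_freyRho (S05.result P hq hq2 hqp))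
    (S₀ := S₀) (abar := freyAbar P (ResidueField O)) (hS₀ _ P.pp (Or.inl rfl))
    (fun ℓ hℓ hℓS A hA s hs => charpoly_freyRho_frobenius hℓ
      (fun h => hℓS (hS₀ ℓ hℓ (Or.inr (Or.inr h)))) (fun h => hℓS (hS₀ ℓ hℓ (Or.inl h))) hA hs)
    (fun S => ?_) ?_ hL hpL h2L (fun q hq h => hS₀ q hq (Or.inr (Or.inl h))) hodd
    (isCongruentLevel_of_modularRepOfLevel nonempty_model hS₀ hmod)
    (fun S M hM ⟨g, hg⟩ => hmin M hM (modularRepOfLevel_of_congruent nonempty_model hg))
    (fun v hv hvL hv2 A hA F hF => ?_)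
  · obtain ⟨ℓ, hℓ, hℓS, -, -, hne⟩ :=
      EC.Rep.exists_apOfModel_ne (W := P.freyCurveInt) (p := P.p) (by omega) hirr' hΔ S
    refine ⟨ℓ, hℓ, hℓS, fun h => hne ((algebraMap (ZMod P.p) (ResidueField O)).injective ?_)⟩
    rw [map_intCast, map_add, map_one, map_natCast]
    exact h
  · intro S M _ g hg hcg q hq hqp hqM hsq A hA σ hσ
    exact trace_sq_of_special hg hcg hq hqp hqM (model M P.p) (hloc M P.p q hq hqp hqM hsq).2 hA hσ
  · obtain ⟨c, hc⟩ := hscal v hv hvL hv2 A hA F hF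
    exact ⟨c, freyRho_eq_smul hc⟩

omit [Fact P.p.Prime] in
/-- The Frey representation is not modular of twice a number prime to `p`. -/
theorem not_modularRepOfLevel_two_mul (hMz : MazurPrincipleInput) (hE : TraceInertiaInput)
    (hloc : LocalModelInput) (hcore : TangentCoreInput)
    (hirr : GaloisRepIsIrreducible (K := AlgebraicClosure ℚ) ℚ P.freyCurve P.p) (d : ℕ) :
    P.IsConductorLevel (2 * d) → ¬ P.p ∣ 2 * d → ¬ P.ModularRepOfLevel (2 * d) := by
  have : Fact P.p.Prime := ⟨P.pp⟩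
  induction d using Nat.strong_induction_on with
  | _ d ih =>
  intro hcond hpd hmod
  by_cases hodd : ∃ v, v.Prime ∧ v ∣ 2 * d ∧ v ≠ 2
  · have hlower : ∀ M : ℕ, M ∣ 2 * d → P.ModularRepOfLevel M → ∀ v : ℕ, v.Prime → v ∣ 2 * d →
        v ≠ 2 → v ∣ M := by
      intro M hM hMmod v hv hvd hv2
      by_contra hvM
      obtain ⟨e, rfl⟩ : v ∣ d := (hv.dvd_mul.1 hvd).resolve_left fun h =>
        hv2 ((Nat.prime_dvd_prime_iff_eq hv Nat.prime_two).1 h)
      have hM' : M ∣ 2 * e := (Nat.Coprime.dvd_of_dvd_mul_left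
        ((Nat.Prime.coprime_iff_not_dvd hv).2 hvM).symm
        (by rwa [show 2 * (v * e) = v * (2 * e) by ring] at hM))
      have he : 2 * e ∣ 2 * (v * e) := Nat.mul_dvd_mul_left 2 (dvd_mul_left e v)
      have he0 : 0 < e := Nat.pos_of_ne_zero fun h => by simp [h] at hcond; exact hcond.pos.ne' rfl
      exact ih e (lt_mul_left he0 hv.one_lt) (hcond.of_dvd he (by omega))
        (fun h => hpd (h.trans he))
        (modularRepOfLevel_raise (hcond.squarefree.squarefree_of_dvd he) hM' hMmod)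
    refine false_of_minimal_level hE hloc hcore hirr hcond.squarefree (dvd_mul_right 2 d) hpd hodd
      hmod hlower fun v hv hvd hv2 A hA F hF => ?_
    by_contra hns
    push Not at hns
    have hvp : v ≠ P.p := fun h => hpd (h ▸ hvd)
    have := hlower _ (Nat.div_dvd_of_dvd hvd) (hMz P hcond hv hv2 hvp hvd hirr hmod
      (S05.result P hv hv2 hvp) ⟨A, F, hA, hF, hns⟩) v hv hvd hv2
    exact hv.not_isUnit (hcond.squarefree v ((Nat.dvd_div_iff_mul_dvd hvd).1 this))
  · push Not at hodd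
    refine not_modularRepOfLevel_two ((Nat.dvd_antisymm ?_ (dvd_mul_right 2 d)) ▸ hmod)
    rw [← Nat.prod_primeFactors_of_squarefree hcond.squarefree]
    refine (Finset.prod_dvd_prod_of_subset _ {2} _ fun q hq => Finset.mem_singleton.2
      (hodd q (Nat.prime_of_mem_primeFactors hq) (Nat.dvd_of_mem_primeFactors hq))).trans ?_
    simp

omit [Fact P.p.Prime] in
/-- The Frey representation is not modular of a level prime to `p`. -/
theorem not_modularRepOfLevel (hMz : MazurPrincipleInput) (hE : TraceInertiaInput)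
    (hloc : LocalModelInput) (hcore : TangentCoreInput)
    (hirr : GaloisRepIsIrreducible (K := AlgebraicClosure ℚ) ℚ P.freyCurve P.p)
    {L : ℕ} (hcond : P.IsConductorLevel L) (hpL : ¬ P.p ∣ L) : ¬ P.ModularRepOfLevel L := by
  have : Fact P.p.Prime := ⟨P.pp⟩
  intro hmod
  obtain ⟨d, hd⟩ := Nat.dvd_lcm_left 2 L
  have hsq : Squarefree (Nat.lcm 2 L) := by
    by_cases h2 : 2 ∣ L
    · rw [Nat.lcm_eq_right h2]; exact hcond.squarefree
    · have hc := (Nat.Prime.coprime_iff_not_dvd Nat.prime_two).2 h2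
      rw [hc.lcm_eq_mul, Nat.squarefree_mul hc]
      exact ⟨Nat.prime_two.squarefree, hcond.squarefree⟩
  have hcond2 : P.IsConductorLevel (Nat.lcm 2 L) := ⟨Nat.pos_of_ne_zero hsq.ne_zero, hsq,
    fun q hq h => (hq.dvd_mul.1 (h.trans (Nat.lcm_dvd_mul 2 L))).elim
      (fun h => (Nat.prime_dvd_prime_iff_eq hq Nat.prime_two).1 h ▸ two_dvd_abc)
      (hcond.support q hq)⟩
  have hp2L : ¬ P.p ∣ Nat.lcm 2 L := fun h =>
    (P.pp.dvd_mul.1 (h.trans (Nat.lcm_dvd_mul 2 L))).elim
      (fun h => by have := Nat.le_of_dvd two_pos h; have := P.hp5; omega) hpL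
  have hmod2 := modularRepOfLevel_raise hsq (Nat.dvd_lcm_right 2 L) hmod
  rw [hd] at hcond2 hp2L hmod2
  exact not_modularRepOfLevel_two_mul hMz hE hloc hcore hirr d hcond2 hp2L hmod2

/-- **Lowering the level at an odd prime other than `p`.** -/
theorem lowerOdd (h44 : Frey.LowerAtPInput) (hMz : MazurPrincipleInput)
    (hcore : TangentCoreInput) : Frey.LowerOddInput := by
  intro P N q hcond _ _ _ _ hirr hmod _
  have key : ∀ M : ℕ, P.IsConductorLevel M → ¬ P.p ∣ M → ¬ P.ModularRepOfLevel M :=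
    fun M hc hp => not_modularRepOfLevel hMz (fun p v R M _ _ _ _ g => InertiaTW.traceInertia p v R M g)
      localModelInput hcore hirr hc hp
  by_cases hpN : P.p ∣ N
  · obtain ⟨M, hMN, hpM, hM⟩ := h44 P hcond hpN hirr hmod
    exact absurd hM (key M (hcond.of_dvd hMN (Nat.pos_of_ne_zero fun h => hpM (h ▸ dvd_zero _))) hpM)
  · exact absurd hmod (key N hcond hpN)

end Fermat.Agent.RT.Assembly
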