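import Fermat.Agent.RT.Assembly.Main
import Fermat.Agent.RT.Lift.Lower.Reduce

/-!
# Mazur's principle for the Frey curve from Mazur's principle for semistable curves
-/

set_option autoImplicit false

noncomputable section

open WeierstrassCurve WeierstrassCurve.Affine WeierstrassCurve.Affine.Point
open CongruenceSubgroup ModularFormClass
open scoped WeierstrassCurve.Affine

namespace Fermat.Agent.RT.Assembly

local notation "Q̄" => AlgebraicClosure ℚ
local notation "GQ" => AlgebraicClosure ℚ ≃ₐ[ℚ] AlgebraicClosure ℚ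

/-- The statement for semistable curves applies to the integral Frey model. -/
theorem mazurPrincipleInput_of (h : Lift.Lower.MazurGenInput) : MazurPrincipleInput := by
  classical
  intro P N q hcond hq _ hqp hqN hirr hmod hunr hns
  have : Fact P.p.Prime := ⟨P.pp⟩
  have hΔ := EC.Reduction.Frey.Δ_ne_zero P
  have hD : ∀ (N p : ℕ) [NeZero N] [Fact p.Prime], Nonempty (GaloisReps.HeckeGaloisModel N p) :=
    nonempty_model
  let S : Finset ℕ := insert P.p (N.primeFactors ∪ P.freyCurveInt.Δ.natAbs.primeFactors)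
  have hS : ∀ ℓ : ℕ, ℓ.Prime → (ℓ = P.p ∨ ℓ ∣ N ∨ (ℓ : ℤ) ∣ P.freyCurveInt.Δ) → ℓ ∈ S := by
    intro ℓ hℓ hh
    simp only [S, Finset.mem_insert, Finset.mem_union, Nat.mem_primeFactors]
    rcases hh with hh | hh | hh
    · exact Or.inl hh
    · exact Or.inr (Or.inl ⟨hℓ, hh, hcond.squarefree.ne_zero⟩)
    · exact Or.inr (Or.inr ⟨hℓ, Int.natCast_dvd.mp hh, Int.natAbs_ne_zero.mpr hΔ⟩)
  have hirr' : P.freyCurveInt.ModRepIsIrreducible P.p := by
    rw [WeierstrassCurve.ModRepIsIrreducible, ← EC.Reduction.Frey.freyCurve_eq_map]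
    exact hirr
  have hss : P.freyCurveInt.IsSemistableModel := fun l hl hd hc => frey_semistable hl ⟨hc, hd⟩
  have hu : (EC.Rep.residualRep P.freyCurveInt P.p hΔ).IsUnramifiedAt q := by
    rw [FreyPackage.GaloisRepUnramifiedAt, EC.Reduction.Frey.freyCurve_eq_map] at hunr
    exact fun A hA σ hσ => LinearMap.ext fun x => hunr A hA σ hσ x
  have hnsc : ¬ Lift.Lower.HasScalarFrobenius P.freyCurveInt hΔ P.p q := by
    intro hsc
    obtain ⟨A, σ, hA, hσ, hmove⟩ := hns
    obtain ⟨c, hc⟩ := hsc A hA σ hσ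
    obtain ⟨x, hx⟩ := hmove (c.val : ℤ)
    have key : ∀ (E : WeierstrassCurve ℚ), E = P.freyCurveInt.map (Int.castRingHom ℚ) →
        ∀ x : Submodule.torsionBy ℤ (E⁄Q̄).Point P.p, σ • x = (c.val : ℤ) • x := by
      rintro _ rfl x
      refine (LinearMap.congr_fun hc x).trans ?_
      show c • x = _
      rw [← Int.cast_smul_eq_zsmul (ZMod P.p), Int.cast_natCast, ZMod.natCast_zmod_val]
    exact hx (key _ (EC.Reduction.Frey.freyCurve_eq_map P) x)
  have hres : P.freyCurveInt.IsResiduallyModularOfLevel P.p N :=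
    Lift.Lower.isResiduallyModular_of_congruent hΔ hD
      (isCongruentLevel_of_modularRepOfLevel (k := ZMod P.p) hD hS hmod)
  have h1 := h P.p (by have := P.hp5; omega) P.freyCurveInt hΔ hss hirr' N q hcond.squarefree hq hqp
    hqN hu hnsc hres
  obtain ⟨g, hg⟩ := Lift.Lower.isCongruentLevel_of_isResiduallyModular (k := ZMod P.p) (S := S)
    (fun ℓ hℓ hh => hS ℓ hℓ (hh.imp_right fun hh =>
      hh.imp_left fun hh => hh.trans (Nat.div_dvd_of_dvd hqN))) h1
  exact modularRepOfLevel_of_congruent (k := ZMod P.p) hD hg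

end Fermat.Agent.RT.Assembly

end
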