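import Fermat.Agent.RT.Algebra.Limit
import Fermat.Agent.RT.Assembly.Quotient

/-!
# The support step, for levels given by matrices over the level quotients

A level is a matrix action of the coordinate ring over `O[[y]]/levelIdeal` which kills the
relations and in which every `(1 + y i) + (1 + y i)⁻¹` is a coordinate.
-/

set_option autoImplicit false

noncomputable section

namespace Fermat.Agent.RT.Assembly

open MvPowerSeries IsLocalRing Fermat.Agent.RT.Algebra Fermat.Agent.RT.Germ

variable {V : Type*} {g r : ℕ} {O : Type*} [CommRing O]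

/-- A level of the patching argument. -/
structure PatchLevel (δ : V → O) (f : MvPowerSeries (Coord V (Fin g)) O) (π : O) (p r B n : ℕ)
    where
  d : ℕ
  d_pos : 0 < d
  d_le : d ≤ B
  act : MvPowerSeries (Coord V (Fin g)) O →ₐ[O]
    Matrix (Fin d) (Fin d) (MvPowerSeries (Fin r) O ⧸ levelIdeal O p n)
  rel : ∀ x ∈ relIdeal δ, act x = 0
  quad : ∀ i, ∃ c, Matrix.scalar (Fin d)
      ((1 + Ideal.Quotient.mk (levelIdeal O p n) (X i)) ^ 2 + 1) =
    Matrix.scalar (Fin d) (1 + Ideal.Quotient.mk (levelIdeal O p n) (X i)) * act c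
  f_mem : ∀ i j, act f i j ∈ Ideal.span {algebraMap O _ π}

/-- The monomials of degree at most one in each variable. -/
def sqfreeMonomial (O : Type*) [CommRing O] {r : ℕ} (e : Finset (Fin r)) :
    MvPowerSeries (Fin r) O :=
  ∏ i ∈ e, X i

theorem smul_pi_single {R : Type*} [CommRing R] {d : ℕ} (j : Fin d) (x a : R) :
    x • (Pi.single j a : Fin d → R) = Pi.single j (x * a) := by
  funext l
  rcases eq_or_ne l j with rfl | h
  · simp
  · simp [Pi.single_eq_of_ne h]

theorem smul_single_mk {R : Type*} [CommRing R] (I : Ideal R) {d : ℕ} (j : Fin d) (c : R)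
    (a : R ⧸ I) : c • (Pi.single j a : Fin d → R ⧸ I) = Pi.single j (Ideal.Quotient.mk I c * a) := by
  funext l
  rcases eq_or_ne l j with rfl | h
  · simp [Algebra.smul_def]
  · simp [Pi.single_eq_of_ne h]

theorem sum_smul_single_one {R : Type*} [CommRing R] (I : Ideal R) {d : ℕ} (c : Fin d → R) :
    ∑ j, c j • (Pi.single j 1 : Fin d → R ⧸ I) = fun j => Ideal.Quotient.mk I (c j) := by
  simp only [smul_single_mk, mul_one]
  exact Finset.univ_sum_single fun j => Ideal.Quotient.mk I (c j)

namespace PatchLevel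

variable {δ : V → O} {f : MvPowerSeries (Coord V (Fin g)) O} {π : O} {p r B n : ℕ}
  (P : PatchLevel δ f π p r B n)

/-- The generating map. -/
def gen : (Finset (Fin r) × Fin P.d → MvPowerSeries (Coord V (Fin g)) O) →ₗ[O]
    (Fin P.d → MvPowerSeries (Fin r) O ⧸ levelIdeal O p n) where
  toFun c := ∑ ej, (P.act (c ej)).mulVec
    (Pi.single ej.2 (Ideal.Quotient.mk _ (sqfreeMonomial O ej.1)))
  map_add' c c' := by
    simp only [Pi.add_apply, map_add, Matrix.add_mulVec, Finset.sum_add_distrib]
  map_smul' a c := by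
    simp only [Pi.smul_apply, map_smul, Matrix.smul_mulVec, Finset.smul_sum, RingHom.id_apply]

theorem mulVec_mem_range (x : MvPowerSeries (Coord V (Fin g)) O)
    {v : Fin P.d → MvPowerSeries (Fin r) O ⧸ levelIdeal O p n} (hv : v ∈ LinearMap.range P.gen) :
    (P.act x).mulVec v ∈ LinearMap.range P.gen := by
  obtain ⟨c, rfl⟩ := hv
  refine ⟨fun ej => x * c ej, ?_⟩
  simp only [gen, LinearMap.coe_mk, AddHom.coe_mk, map_mul, Matrix.mulVec_sum,
    Matrix.mulVec_mulVec]

theorem single_mem_range (e : Finset (Fin r)) (j : Fin P.d) :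
    (Pi.single j (Ideal.Quotient.mk (levelIdeal O p n) (sqfreeMonomial O e)) :
      Fin P.d → MvPowerSeries (Fin r) O ⧸ levelIdeal O p n) ∈ LinearMap.range P.gen := by
  classical
  refine ⟨Pi.single (e, j) 1, ?_⟩
  simp only [gen, LinearMap.coe_mk, AddHom.coe_mk]
  rw [Finset.sum_eq_single (e, j)]
  · rw [Pi.single_eq_same, map_one, Matrix.one_mulVec]
  · intro b _ hb
    rw [Pi.single_eq_of_ne hb, map_zero, Matrix.zero_mulVec]
  · simp

theorem smul_act_sub_two {i : Fin r} {a : MvPowerSeries (Coord V (Fin g)) O}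
    (ha : Matrix.scalar (Fin P.d) ((1 + Ideal.Quotient.mk (levelIdeal O p n) (X i)) ^ 2 + 1) =
      Matrix.scalar (Fin P.d) (1 + Ideal.Quotient.mk (levelIdeal O p n) (X i)) * P.act a) :
    (1 + Ideal.Quotient.mk (levelIdeal O p n) (X i)) • P.act (a - 2) =
      (Ideal.Quotient.mk (levelIdeal O p n) (X i) * Ideal.Quotient.mk (levelIdeal O p n) (X i)) •
        (1 : Matrix (Fin P.d) (Fin P.d) (MvPowerSeries (Fin r) O ⧸ levelIdeal O p n)) := by
  rw [Matrix.scalar_apply, Matrix.scalar_apply] at ha
  ext k l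
  have h := congrFun (congrFun ha k) l
  rw [Matrix.diagonal_mul] at h
  rw [map_sub, map_ofNat, Matrix.smul_apply, Matrix.smul_apply, Matrix.sub_apply, smul_eq_mul,
    smul_eq_mul, Matrix.ofNat_apply, Matrix.one_apply]
  rcases eq_or_ne k l with rfl | hkl
  · rw [Matrix.diagonal_apply_eq] at h
    simp only [if_true]
    linear_combination -h
  · rw [Matrix.diagonal_apply_ne _ hkl] at h
    simp only [if_neg hkl]
    linear_combination -h

theorem X_smul_mem_range (i : Fin r) {v : Fin P.d → MvPowerSeries (Fin r) O ⧸ levelIdeal O p n}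
    (hv : v ∈ LinearMap.range P.gen) :
    Ideal.Quotient.mk (levelIdeal O p n) (X i) • v ∈ LinearMap.range P.gen := by
  classical
  obtain ⟨c, rfl⟩ := hv
  simp only [gen, LinearMap.coe_mk, AddHom.coe_mk, Finset.smul_sum, ← Matrix.mulVec_smul]
  refine Submodule.sum_mem _ fun ej _ => P.mulVec_mem_range _ ?_
  obtain ⟨e, j⟩ := ej
  set x := Ideal.Quotient.mk (levelIdeal O p n) (X i) with hx
  rw [smul_pi_single]
  by_cases hi : i ∈ e
  swap
  · have hins : Ideal.Quotient.mk (levelIdeal O p n) (sqfreeMonomial O (insert i e)) =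
        x * Ideal.Quotient.mk (levelIdeal O p n) (sqfreeMonomial O e) := by
      rw [hx, sqfreeMonomial, sqfreeMonomial, Finset.prod_insert hi, map_mul]
    exact hins ▸ P.single_mem_range (insert i e) j
  obtain ⟨a, ha⟩ := P.quad i
  have hA := P.smul_act_sub_two ha
  rw [← hx] at hA
  set u := Ideal.Quotient.mk (levelIdeal O p n) (sqfreeMonomial O (e.erase i)) with hu
  have he : Ideal.Quotient.mk (levelIdeal O p n) (sqfreeMonomial O e) = x * u := by
    rw [hu, hx, ← map_mul, sqfreeMonomial, sqfreeMonomial, Finset.mul_prod_erase _ _ hi]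
  have hsum : (Pi.single j (x * u) : Fin P.d → MvPowerSeries (Fin r) O ⧸ levelIdeal O p n) +
      Pi.single j u = (1 + x) • Pi.single j u := by
    rw [← Pi.single_add, smul_pi_single, add_mul, one_mul, add_comm]
  have key : (Pi.single j (x * (x * u)) : Fin P.d → MvPowerSeries (Fin r) O ⧸ levelIdeal O p n) =
      (P.act (a - 2)).mulVec (Pi.single j (x * u)) + (P.act (a - 2)).mulVec (Pi.single j u) := by
    rw [← Matrix.mulVec_add, hsum, Matrix.mulVec_smul, ← Matrix.smul_mulVec, hA,
      Matrix.smul_mulVec, Matrix.one_mulVec, smul_pi_single, mul_assoc]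
  rw [he, key]
  refine Submodule.add_mem _ (P.mulVec_mem_range _ ?_) (P.mulVec_mem_range _ ?_)
  · exact he ▸ P.single_mem_range e j
  · exact P.single_mem_range (e.erase i) j

theorem range_gen [IsLocalRing O] [IsNoetherianRing O] [IsAdicComplete (maximalIdeal O) O]
    (hpr : p.Prime) (hp : (p : O) ∈ maximalIdeal O) : LinearMap.range P.gen = ⊤ :=
  eq_top_of_X_stable hpr hp n _ (fun i v hv => P.X_smul_mem_range i hv) fun j => by
    simpa [sqfreeMonomial] using P.single_mem_range ∅ j

end PatchLevel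

variable [IsDomain O] [IsDiscreteValuationRing O] [IsAdicComplete (maximalIdeal O) O]
  [Finite (ResidueField O)] [Finite V]
  {K : Type*} [NontriviallyNormedField K] [IsUltrametricDist K] [CompleteSpace K] [IsAlgClosed K]

/-- **The support step**: if levels of bounded rank exist for all `n`, a series whose matrices
are divisible by `π` at all of them has small coefficients at the monomials free of `a, b, e`. -/
theorem coeff_mem_maximalIdeal_of_patchLevels (φ : O →+* ball1 K) (hφinj : Function.Injective φ)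
    (hφ : ∀ c ∈ maximalIdeal O, ‖(φ c : K)‖ < 1) (h2 : ‖(2 : K)‖ = 1) {δ : V → O}
    (hδ0 : ∀ v, δ v ≠ 0) (hδ : ∀ v, δ v ∈ maximalIdeal O) {p : ℕ} (hpr : p.Prime)
    (hp : (p : O) ∈ maximalIdeal O) (hr : r = 3 * Nat.card V + g)
    {π : O} (hπ : Irreducible π) {f : MvPowerSeries (Coord V (Fin g)) O} {B : ℕ}
    (hP : ∀ n, Nonempty (PatchLevel δ f π p r B n))
    {d : Coord V (Fin g) →₀ ℕ} (hd : ∀ v l, d (Sum.inl (v, 0, l)) = 0) :
    coeff d f ∈ maximalIdeal O := by
  classical
  let P := fun n => Classical.choice (hP n)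
  let Q : ℕ → Type _ := fun n => MvPowerSeries (Fin r) O ⧸ levelIdeal O p n
  let M : ℕ → Type _ := fun n => Fin (P n).d → MvPowerSeries (Fin r) O ⧸ levelIdeal O p n
  let : ∀ n, Module (MvPowerSeries (Coord V (Fin g)) O) (M n) := fun n =>
    Module.compHom _ ((Matrix.toLinAlgEquiv' (R := MvPowerSeries (Fin r) O ⧸ levelIdeal O p n)
      (n := Fin (P n).d)).toRingEquiv.toRingHom.comp (P n).act.toRingHom)
  have hsmul : ∀ n (c : MvPowerSeries (Coord V (Fin g)) O) (v : M n),
      c • v = ((P n).act c).mulVec v := fun n c v => rfl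
  have : ∀ n, SMulCommClass (MvPowerSeries (Coord V (Fin g)) O) (MvPowerSeries (Fin r) O) (M n) :=
    fun n => ⟨fun c s v => by rw [hsmul, hsmul]; exact Matrix.mulVec_smul _ s v⟩
  let e := Fintype.equivFin (Finset (Fin r))
  refine coeff_mem_maximalIdeal_of_levels (ι := Fin r) (M := M) φ hφinj hφ h2 hδ0 hδ ?_ ?_
    (fun n => (P n).d) (fun n => (P n).d_pos) (fun n => (P n).d_le) (fun n j => Pi.single j 1)
    ?_ ?_ (fun q => sqfreeMonomial O (e.symm q)) ?_ ?_ hπ ?_ hd
  · rw [Nat.card_sum, Nat.card_prod, Nat.card_fin, Nat.card_fin, Nat.card_fin, hr, mul_comm]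
  · intro n c x
    rw [hsmul, show (C c : MvPowerSeries (Coord V (Fin g)) O) = algebraMap O _ c from rfl, AlgHom.commutes,
      Algebra.algebraMap_eq_smul_one, Matrix.smul_mulVec, Matrix.one_mulVec]
    funext j
    simp only [Pi.smul_apply]
    exact (algebraMap_smul (MvPowerSeries (Fin r) O) c (x j)).symm
  · intro n x
    choose c hc using fun j => Ideal.Quotient.mk_surjective (x j)
    refine ⟨c, ?_⟩
    exact ((funext hc : (fun j => Ideal.Quotient.mk (levelIdeal O p n) (c j)) = x).symm.trans
      (sum_smul_single_one (levelIdeal O p n) c).symm)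
  · intro n c hc j
    have h : Ideal.Quotient.mk (levelIdeal O p n) (c j) = 0 :=
      congrFun ((sum_smul_single_one (levelIdeal O p n) c).symm.trans hc) j
    exact Ideal.pow_le_pow_right n.le_succ
      (levelIdeal_le hp n (Ideal.Quotient.eq_zero_iff_mem.mp h))
  · intro n x
    obtain ⟨c, hc⟩ : x ∈ LinearMap.range (P n).gen := by
      rw [(P n).range_gen hpr hp]; trivial
    refine ⟨fun q => c (e.symm q.1, q.2), ?_⟩
    rw [← hc]
    refine Fintype.sum_equiv (e.prodCongr (Equiv.refl _)) _ _ fun ej => ?_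
    rw [hsmul]
    simp only [Equiv.prodCongr_apply, Equiv.coe_refl, Prod.map_fst, Prod.map_snd, id_eq,
      Equiv.symm_apply_apply]
    congr 1
    exact (congrArg (Pi.single ej.2) (mul_one _)).symm.trans
      (smul_single_mk (levelIdeal O p n) ej.2 (sqfreeMonomial O ej.1) 1).symm
  · intro n x hx v
    rw [hsmul, (P n).rel x hx, Matrix.zero_mulVec]
  · intro n x
    choose G hG using fun i j => Ideal.mem_span_singleton'.mp ((P n).f_mem i j)
    refine ⟨(Matrix.of G).mulVec x, ?_⟩
    rw [hsmul, hsmul, show (C π : MvPowerSeries (Coord V (Fin g)) O) = algebraMap O _ π from rfl, AlgHom.commutes,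
      Algebra.algebraMap_eq_smul_one, Matrix.smul_mulVec, Matrix.one_mulVec,
      ← Matrix.smul_mulVec]
    congr 1
    ext i j
    exact (hG i j).symm.trans ((mul_comm _ _).trans (Algebra.smul_def π (G i j)).symm)

end Fermat.Agent.RT.Assembly
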